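import Fermat.Agent.MAZ.Loc.Dual
import Fermat.Agent.S36.K0

/-!
# MAZ / Loc / [LOC-OT] : Hopf orders of rank `r` over `ℤ_(r)` are etale or multiplicative (`r = 2` included)

CLAIM: `#X = r` ⟹ `conn A H = ⊥` or `dconn A H = ⊥`.
PROOF.  Assume `conn A H ≠ ⊥`, so `conn A H = ⊤` (prime order): `v (h x - h 0) < 1` for all `h, x`.
Let `b` be the basis (`exists_basis_fun`) and `γ := max_{i, x} v (b i x - b i 0) < 1`, attained at `(i₀, x₀)`,
`c := b i₀ x₀ - b i₀ 0`.  `c ≠ 0` (otherwise all `b i` are constant and cannot span the functions on `X`).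
1. `v (h x - h 0) ≤ γ` for all `h ∈ H`, `x`; so `ξ_x := c⁻¹ • (pt x - pt 0) ∈ dual A H`.
2. `ft_mem` : `(lam x - 1) / c ∈ A`.  For `x ≠ 0`, `lam ≠ 1`, `lam x = ζ` is a primitive `r`-th root of unity:
   `v (ζ - 1) ≤ γ`.
3. The `I_A`-conjugates of `c` are among the `b i₀ x - b i₀ 0`, `x ≠ 0` (`b i₀` is equivariant, `b i₀ 0 ∈ ℚ`):
   at most `r - 1` of them, all of valuation `γ` (`Bridge.valuation_apply_of_mem_decomposition`).  Their
   product is `I_A`-fixed: `γ ^ f = v(r) ^ n` (`S36.exists_zpow_of_inertia_fixed`), `1 ≤ f ≤ r - 1`, and `n ≥ 1`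
   since `γ < 1`.  So `γ ^ (r-1) ≤ γ ^ f ≤ v(r) = v(ζ - 1) ^ (r-1)` (`Bridge.valuation_natCast_eq_pow`):
   `γ ≤ v (ζ - 1)`  [`exists_pow_eq_zpow_of_orbit`].
4. So `γ = v (ζ - 1)` for every primitive `ζ`.  For `lam ≠ mu`:
   `ft ξ_{x₀} lam - ft ξ_{x₀} mu = mu x₀ * ((lam / mu) x₀ - 1) / c` has valuation `1`: `lam / mu ∉ dconn`.
-/

set_option autoImplicit false

noncomputable section

namespace Fermat.Agent.MAZ

open Fermat.Agent.FLAT (Qb GQ Zl IsHopfOrder)

/-- if the inertia orbit of `c` is contained in a finite set of `m` elements, then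
`v(c) ^ f = v(q) ^ n` for some `1 ≤ f ≤ m`. -/
theorem exists_pow_eq_zpow_of_orbit {q : ℕ} (hq : q.Prime) {A : ValuationSubring Qb}
    (hA : A.LiesOverPrime q) {c : Qb} (hc : c ≠ 0) (T : Finset Qb)
    (hT : ∀ σ ∈ A.inertiaSubgroupIn ℚ, σ c ∈ T) :
    ∃ (f : ℕ) (n : ℤ), 1 ≤ f ∧ f ≤ T.card ∧ A.valuation c ^ f = A.valuation (q : Qb) ^ n := by
  classical
  set Orb : Finset Qb := T.filter (fun y => ∃ σ ∈ A.inertiaSubgroupIn ℚ, σ c = y) with hOrb
  have hmem : ∀ y, y ∈ Orb ↔ ∃ σ ∈ A.inertiaSubgroupIn ℚ, σ c = y := by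
    intro y
    rw [hOrb, Finset.mem_filter]
    constructor
    · exact fun h => h.2
    · rintro ⟨σ, hσ, rfl⟩
      exact ⟨hT σ hσ, σ, hσ, rfl⟩
  have hcO : c ∈ Orb := (hmem c).2 ⟨1, one_mem _, rfl⟩
  have hx0 : ∏ y ∈ Orb, y ≠ 0 := by
    rw [Finset.prod_ne_zero_iff]
    intro y hy
    obtain ⟨σ, -, rfl⟩ := (hmem y).1 hy
    exact (map_ne_zero σ).2 hc
  have hfix : ∀ τ ∈ A.inertiaSubgroupIn ℚ, τ (∏ y ∈ Orb, y) = ∏ y ∈ Orb, y := by
    intro τ hτ
    rw [map_prod]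
    refine Finset.prod_bij (fun y _ => τ y) ?_ ?_ ?_ ?_
    · intro y hy
      obtain ⟨σ, hσ, rfl⟩ := (hmem y).1 hy
      exact (hmem _).2 ⟨τ * σ, mul_mem hτ hσ, rfl⟩
    · intro y _ y' _ h
      exact τ.injective h
    · intro y hy
      obtain ⟨σ, hσ, rfl⟩ := (hmem y).1 hy
      refine ⟨(τ⁻¹ * σ) c, (hmem _).2 ⟨τ⁻¹ * σ, mul_mem (inv_mem hτ) hσ, rfl⟩, ?_⟩
      rw [← AlgEquiv.mul_apply, mul_inv_cancel_left]
    · intro y _
      rfl
  obtain ⟨n, hn⟩ := S36.exists_zpow_of_inertia_fixed hq hA hx0 hfix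
  refine ⟨Orb.card, n, Finset.card_pos.2 ⟨c, hcO⟩, Finset.card_le_card (Finset.filter_subset _ _), ?_⟩
  rw [← hn, map_prod]
  rw [Finset.prod_congr rfl (g := fun _ => A.valuation c), Finset.prod_const]
  intro y hy
  obtain ⟨σ, hσ, rfl⟩ := (hmem y).1 hy
  exact Bridge.valuation_apply_of_mem_decomposition (Bridge.mem_decomposition_of_mem_inertia hσ) c

section aux

variable {X : Type} [AddCommGroup X]

theorem pair_smul_sub_pt_ot [Finite X] (a : Qb) (x y : X) (h : X → Qb) :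
    pair (a • (pt x - pt y)) h = a * (h x - h y) := by
  cases nonempty_fintype X
  rw [← pair_pt x h, ← pair_pt y h]
  simp only [pair, finsum_eq_sum_of_fintype]
  rw [← Finset.sum_sub_distrib, Finset.mul_sum]
  refine Finset.sum_congr rfl fun z _ => ?_
  simp only [Pi.smul_apply, Pi.sub_apply, smul_eq_mul]
  ring

theorem ft_smul_sub_pt_ot [Finite X] (a : Qb) (x y : X) (lam : AddChar X Qb) :
    ft (a • (pt x - pt y)) lam = a * (lam x - lam y) := by
  cases nonempty_fintype X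
  rw [← ft_pt x lam, ← ft_pt y lam]
  simp only [ft, finsum_eq_sum_of_fintype]
  rw [← Finset.sum_sub_distrib, Finset.mul_sum]
  refine Finset.sum_congr rfl fun z _ => ?_
  simp only [Pi.smul_apply, Pi.sub_apply, smul_eq_mul]
  ring

/-- `#X^∨ = #X`. -/
theorem card_addChar_ot [Finite X] : Nat.card (AddChar X Qb) = Nat.card X := by
  have hexp : NeZero (Monoid.exponent (Multiplicative X)) :=
    ⟨(Monoid.exponent_ne_zero_of_finite)⟩
  have h1 := CommGroup.card_monoidHom_of_hasEnoughRootsOfUnity (Multiplicative X) Qb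
  have h2 : Nat.card (Multiplicative X) = Nat.card X := Nat.card_congr Multiplicative.toAdd
  rw [← h2, ← h1]
  refine Nat.card_congr
    { toFun := fun ψ => (AddChar.toMonoidHomEquiv ψ).toHomUnits
      invFun := fun φ => AddChar.toMonoidHomEquiv.symm ((Units.coeHom Qb).comp φ)
      left_inv := fun ψ => ?_
      right_inv := fun φ => ?_ }
  · ext x
    rfl
  · ext x
    rfl

/-- a nontrivial character of a group of prime order takes primitive values. -/
theorem isPrimitiveRoot_apply_ot {r : ℕ} [Fact r.Prime] (hX : Nat.card X = r)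
    {lam : AddChar X Qb} (hlam : lam ≠ 1) {x : X} (hx : x ≠ 0) : IsPrimitiveRoot (lam x) r := by
  have hfin : Finite X := Nat.finite_of_card_ne_zero (by rw [hX]; exact (Fact.out : r.Prime).ne_zero)
  have h1 : lam x ^ r = 1 := by
    rw [← AddChar.map_nsmul_eq_pow, ← hX, card_nsmul_eq_zero', AddChar.map_zero_eq_one]
  have h2 : lam x ≠ 1 := by
    intro h
    apply hlam
    ext y
    have hmem : y ∈ AddSubgroup.zmultiples x := mem_zmultiples_of_prime_card hX hx
    obtain ⟨k, rfl⟩ := AddSubgroup.mem_zmultiples_iff.1 hmem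
    rw [lam.map_zsmul_eq_zpow, h, one_zpow, AddChar.one_apply]
  have h3 := orderOf_eq_prime h1 h2
  rw [← h3]
  exact IsPrimitiveRoot.orderOf _

end aux

variable {r : ℕ} [Fact r.Prime] {A : ValuationSubring Qb} {X : Type} [AddCommGroup X]
  {act : GQ →* AddMonoid.End X} {H : Subalgebra (Zl r) (X → Qb)}

/-- value group computation: `γ < 1`, `γ ^ f = ρ ^ m`, `1 ≤ f ≤ N`, `ρ < 1`, `ρ = δ ^ N` ⟹ `γ ≤ δ`. -/
theorem le_of_pow_eq_zpow_ot {Γ : Type*} [LinearOrderedCommGroupWithZero Γ] {γ ρ δ : Γ}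
    {f N : ℕ} {m : ℤ} (hγ : γ < 1) (hρ0 : ρ ≠ 0) (hρ : ρ < 1) (hf1 : 1 ≤ f) (hfN : f ≤ N)
    (h : γ ^ f = ρ ^ m) (hδ : ρ = δ ^ N) : γ ≤ δ := by
  have hm : 1 ≤ m := by
    by_contra hm
    obtain ⟨k, hk⟩ : ∃ k : ℕ, m = -(k : ℤ) := ⟨(-m).toNat, by omega⟩
    have h1 : γ ^ f < 1 := pow_lt_one₀ zero_le hγ (by omega)
    rw [h, hk, zpow_neg, zpow_natCast] at h1
    have h2 : ρ ^ k ≤ 1 := pow_le_one₀ zero_le hρ.le
    have h3 : 1 ≤ (ρ ^ k)⁻¹ := (one_le_inv₀ (zero_lt_iff.2 (pow_ne_zero _ hρ0))).2 h2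
    exact absurd h1 (not_lt.2 h3)
  obtain ⟨k, hk⟩ : ∃ k : ℕ, m = (k : ℤ) + 1 := ⟨(m - 1).toNat, by omega⟩
  have h1 : ρ ^ m ≤ ρ := by
    rw [hk, zpow_add₀ hρ0, zpow_natCast, zpow_one]
    calc ρ ^ k * ρ ≤ 1 * ρ := mul_le_mul_left (pow_le_one₀ zero_le hρ.le) _
      _ = ρ := one_mul _
  have h2 : γ ^ N ≤ γ ^ f := pow_le_pow_of_le_one zero_le hγ.le hfN
  have h3 : γ ^ N ≤ δ ^ N := by
    rw [← hδ]
    exact h2.trans (h ▸ h1)
  by_contra hlt
  rw [not_le] at hlt
  exact absurd h3 (not_le.2 (pow_lt_pow_left₀ hlt zero_le (by omega)))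

/-- **[LOC-OT]** -/
theorem conn_eq_bot_or_dconn_eq_bot (hA : A.LiesOverPrime r) (hH : IsHopfOrder r act H)
    (hX : Nat.card X = r) : conn A H = ⊥ ∨ dconn A H = ⊥ := by
  classical
  have hr : r.Prime := Fact.out
  have hfin : Finite X := Nat.finite_of_card_ne_zero (by rw [hX]; exact hr.ne_zero)
  have hnt : Nontrivial X := by
    rw [← Finite.one_lt_card_iff_nontrivial, hX]
    exact hr.one_lt
  by_cases hconn : conn A H = ⊥
  · exact Or.inl hconn
  right
  have htop : conn A H = ⊤ := by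
    have : Fact (Nat.card X).Prime := ⟨hX ▸ hr⟩
    exact ((conn A H).eq_bot_or_eq_top_of_prime_card).resolve_left hconn
  have hlt : ∀ h ∈ H, ∀ x, A.valuation (h x - h 0) < 1 := by
    intro h hh x
    have h1 : x ∈ conn A H := by rw [htop]; trivial
    have h2 := h1 h hh 0
    rwa [add_zero] at h2
  obtain ⟨n, b, hbH, -, hbspan, hbgen⟩ := exists_basis_fun hH
  have hW : ¬ ∀ i x, b i x = b i 0 := by
    intro hall
    let W : Submodule Qb (X → Qb) :=
      { carrier := {f | ∀ x, f x = f 0}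
        add_mem' := fun {f g} hf hg x => by rw [Pi.add_apply, Pi.add_apply, hf x, hg x]
        zero_mem' := fun x => rfl
        smul_mem' := fun a f hf x => by rw [Pi.smul_apply, Pi.smul_apply, hf x] }
    have h1 : (⊤ : Submodule Qb (X → Qb)) ≤ W := by
      rw [← hbspan, Submodule.span_le]
      rintro _ ⟨i, rfl⟩
      exact hall i
    obtain ⟨x, hx⟩ := exists_ne (0 : X)
    have h2 := h1 (Submodule.mem_top : (Pi.single 0 1 : X → Qb) ∈ ⊤) x
    rw [Pi.single_eq_same, Pi.single_eq_of_ne hx] at h2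
    exact zero_ne_one h2
  push Not at hW
  obtain ⟨i₁, x₁, h₁⟩ := hW
  have hne : Nonempty (Fin n × X) := ⟨(i₁, x₁)⟩
  obtain ⟨⟨i₀, x₀⟩, hmax⟩ :=
    Finite.exists_max (fun p : Fin n × X => A.valuation (b p.1 p.2 - b p.1 0))
  set c := b i₀ x₀ - b i₀ 0 with hc
  have hc0 : c ≠ 0 := by
    intro h0
    have h2 := hmax (i₁, x₁)
    simp only [h0, map_zero, le_zero_iff, map_eq_zero] at h2
    exact h₁ (sub_eq_zero.1 h2)
  have hx₀ : x₀ ≠ 0 := by
    intro h0
    apply hc0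
    rw [hc, h0, sub_self]
  have hvc0 : A.valuation c ≠ 0 := (Valuation.ne_zero_iff _).2 hc0
  have hle : ∀ h ∈ H, ∀ x, A.valuation (h x - h 0) ≤ A.valuation c := by
    intro h hh x
    obtain ⟨a, rfl⟩ := hbgen h hh
    have e : (∑ i, a i • b i) x - (∑ i, a i • b i) 0 =
        ∑ i, algebraMap (Zl r) Qb (a i) * (b i x - b i 0) := by
      simp only [Finset.sum_apply, Pi.smul_apply]
      rw [← Finset.sum_sub_distrib]
      exact Finset.sum_congr rfl fun i _ => by rw [Algebra.smul_def, Algebra.smul_def]; ring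
    rw [e]
    refine Valuation.map_sum_le _ (fun i _ => ?_)
    rw [map_mul]
    calc A.valuation (algebraMap (Zl r) Qb (a i)) * A.valuation (b i x - b i 0)
        ≤ 1 * A.valuation c :=
          mul_le_mul' ((A.valuation_le_one_iff _).2 (algebraMap_Zl_mem hA _)) (hmax (i, x))
      _ = A.valuation c := one_mul _
  have hξ : c⁻¹ • (pt x₀ - pt 0) ∈ dual A H := by
    intro h hh
    rw [pair_smul_sub_pt_ot, ← A.valuation_le_one_iff, map_mul, map_inv₀,
      inv_mul_le_iff₀ (zero_lt_iff.2 hvc0), mul_one]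
    exact hle h hh x₀
  rw [Subgroup.eq_bot_iff_forall]
  intro lam hlam
  by_contra hlam1
  have hζ : IsPrimitiveRoot (lam x₀) r := isPrimitiveRoot_apply_ot hX hlam1 hx₀
  have h4 := hlam _ hξ 1
  rw [mul_one, ft_smul_sub_pt_ot, ft_smul_sub_pt_ot, AddChar.map_zero_eq_one, AddChar.one_apply,
    AddChar.one_apply, sub_self, mul_zero, sub_zero, map_mul, map_inv₀,
    inv_mul_lt_iff₀ (zero_lt_iff.2 hvc0), mul_one] at h4
  cases nonempty_fintype X
  let T : Finset Qb := (Finset.univ.erase (0 : X)).image (fun x => b i₀ x - b i₀ 0)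
  have hTcard : T.card ≤ r - 1 := by
    refine Finset.card_image_le.trans ?_
    rw [Finset.card_erase_of_mem (Finset.mem_univ _), Finset.card_univ, ← Nat.card_eq_fintype_card,
      hX]
  have hT : ∀ σ ∈ A.inertiaSubgroupIn ℚ, σ c ∈ T := by
    intro σ _
    have e1 := hH.equivariant (b i₀) (hbH i₀) σ x₀
    have e2 := hH.equivariant (b i₀) (hbH i₀) σ 0
    rw [map_zero] at e2
    refine Finset.mem_image.2 ⟨act σ x₀, Finset.mem_erase.2 ⟨?_, Finset.mem_univ _⟩, ?_⟩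
    · intro h0
      apply hx₀
      have e3 : act σ⁻¹ (act σ x₀) = x₀ := by
        show (act σ⁻¹ * act σ) x₀ = x₀
        rw [← map_mul, inv_mul_cancel, map_one]
        rfl
      rw [← e3, h0, map_zero]
    · rw [hc, map_sub, e1, ← e2]
  obtain ⟨f, m, hf1, hfT, hfm⟩ := exists_pow_eq_zpow_of_orbit hr hA hc0 T hT
  have hr0 : A.valuation (r : Qb) ≠ 0 :=
    (Valuation.ne_zero_iff _).2 (by exact_mod_cast hr.ne_zero)
  have h3 : A.valuation c ≤ A.valuation (lam x₀ - 1) :=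
    le_of_pow_eq_zpow_ot (hlt (b i₀) (hbH i₀) x₀) hr0 ((A.mem_nonunits_iff).1 hA) hf1
      (hfT.trans hTcard) hfm (Bridge.valuation_natCast_eq_pow hr hζ)
  exact absurd h4 (not_lt.2 h3)

theorem le_index_mul_index_of_card_eq (hA : A.LiesOverPrime r) (hH : IsHopfOrder r act H)
    (hX : Nat.card X = r) : r ≤ (conn A H).index * (dconn A H).index := by
  have hr : r.Prime := Fact.out
  have hfin : Finite X := Nat.finite_of_card_ne_zero (by rw [hX]; exact hr.ne_zero)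
  have hcard : Nat.card (AddChar X Qb) = r := by rw [card_addChar_ot, hX]
  have hfin' : Finite (AddChar X Qb) :=
    Nat.finite_of_card_ne_zero (by rw [hcard]; exact hr.ne_zero)
  have h1 : 1 ≤ (conn A H).index := Nat.one_le_iff_ne_zero.2 AddSubgroup.index_ne_zero_of_finite
  have h2 : 1 ≤ (dconn A H).index := Nat.one_le_iff_ne_zero.2 Subgroup.index_ne_zero_of_finite
  rcases conn_eq_bot_or_dconn_eq_bot hA hH hX with h | h
  · rw [h, AddSubgroup.index_bot, hX]
    exact Nat.le_mul_of_pos_right _ h2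
  · rw [h, Subgroup.index_bot, hcard]
    exact Nat.le_mul_of_pos_left _ h1

end Fermat.Agent.MAZ
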