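import Fermat.Agent.MAZ.Loc.Index
import Fermat.Agent.MAZ.Loc.OT
import Fermat.Agent.MAZ.Abs.Line

/-!
# MAZ / Loc / (RANK) : no local-local part

`#X ≤ [X : X⁰] * [X^∨ : (X^∨)⁰]` for a Hopf order over `ℤ_(r)` on a finite `r`-group `X` satisfying `(U)`
(every `σ` fixing `μ_r` acts through an element of `r`-power order).  Induction on `#X`:
divide by a stable line.
-/

set_option autoImplicit false

noncomputable section

namespace Fermat.Agent.MAZ

open Fermat.Agent.FLAT (Qb GQ Zl IsHopfOrder)

theorem rank_aux {r : ℕ} [Fact r.Prime] {A : ValuationSubring Qb} (hA : A.LiesOverPrime r) (n : ℕ) :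
    ∀ (X : Type) [AddCommGroup X] [Finite X] (act : GQ →* AddMonoid.End X)
      (H : Subalgebra (Zl r) (X → Qb)), IsHopfOrder r act H →
      (∀ v : X, ∃ k : ℕ, r ^ k • v = 0) →
      (∀ σ : GQ, (∀ ζ : Qb, ζ ^ r = 1 → σ ζ = ζ) → ∃ n : ℕ, ∀ v : X, act (σ ^ r ^ n) v = v) →
      Nat.card X = n → Nat.card X ≤ (conn A H).index * (dconn A H).index := by
  have hr : r.Prime := Fact.out
  induction n using Nat.strong_induction_on with
  | _ n ih =>
    intro X _ _ act H hH hX hU hn
    by_cases hnt : Nontrivial X
    · obtain ⟨F, hF, hst⟩ := exists_stable_line hr hX act (fixMu r) (fun g hg => hU g hg)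
        (commutator_mem_fixMu hr.ne_zero) (pow_mem_fixMu hr)
      have hcard : Nat.card X = Nat.card (X ⧸ F) * r := by
        rw [← hF]
        exact AddSubgroup.card_eq_card_quotient_mul_card_addSubgroup F
      have hlt : Nat.card (X ⧸ F) < n := by
        have h2 := hr.two_le
        have hq : 0 < Nat.card (X ⧸ F) := Nat.card_pos
        rw [← hn, hcard]
        nlinarith
      have IH := ih _ hlt (X ⧸ F) (quotAct act F hst) (quotOrd H F) (isHopfOrder_quotOrd hH F hst)
        (by
          intro v
          induction v using QuotientAddGroup.induction_on with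
          | H v =>
            obtain ⟨k, hk⟩ := hX v
            refine ⟨k, ?_⟩
            rw [← QuotientAddGroup.mk_nsmul, hk]
            rfl)
        (by
          intro σ hσ
          obtain ⟨m, hm⟩ := hU σ hσ
          refine ⟨m, fun v => ?_⟩
          induction v using QuotientAddGroup.induction_on with
          | H v => rw [quotAct_mk, hm])
        rfl
      have h1 := le_index_mul_index_of_card_eq (A := A) hA (isHopfOrder_subOrd hH F hst) hF
      have h2 := conn_index_le (A := A) (H := H) F
      have h3 := dconn_index_le hA hH F hst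
      calc Nat.card X = Nat.card (X ⧸ F) * r := hcard
        _ ≤ ((conn A (quotOrd H F)).index * (dconn A (quotOrd H F)).index) *
            ((conn A (subOrd H F)).index * (dconn A (subOrd H F)).index) := Nat.mul_le_mul IH h1
        _ = ((conn A (subOrd H F)).index * (conn A (quotOrd H F)).index) *
            ((dconn A (subOrd H F)).index * (dconn A (quotOrd H F)).index) := by ring
        _ ≤ (conn A H).index * (dconn A H).index := Nat.mul_le_mul h2 h3
    · rw [not_nontrivial_iff_subsingleton] at hnt
      have h1 : Nat.card X = 1 := Nat.card_unique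
      have h2 : (conn A H).index = 1 := by
        rw [AddSubgroup.index_eq_one]
        exact Subsingleton.elim _ _
      have h3 : (dconn A H).index = 1 := by
        rw [Subgroup.index_eq_one, eq_top_iff]
        intro lam _
        have : lam = 1 := by
          ext x
          rw [Subsingleton.elim x 0]
          simp
        rw [this]
        exact (dconn A H).one_mem
      rw [h1, h2, h3]

/-- **(RANK)** -/
theorem card_le_index_mul_index {r : ℕ} [Fact r.Prime] {A : ValuationSubring Qb}
    (hA : A.LiesOverPrime r) {X : Type} [AddCommGroup X] [Finite X] {act : GQ →* AddMonoid.End X}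
    {H : Subalgebra (Zl r) (X → Qb)} (hH : IsHopfOrder r act H)
    (hX : ∀ v : X, ∃ k : ℕ, r ^ k • v = 0)
    (hU : ∀ σ : GQ, (∀ ζ : Qb, ζ ^ r = 1 → σ ζ = ζ) → ∃ n : ℕ, ∀ v : X, act (σ ^ r ^ n) v = v) :
    Nat.card X ≤ (conn A H).index * (dconn A H).index :=
  rank_aux hA _ X act H hH hX hU rfl

end Fermat.Agent.MAZ
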