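import Fermat.Agent.MAZ.Loc.Perp
import Fermat.Agent.MAZ.Loc.Rank

/-!
# MAZ / Loc / [LOC-MAIN] : a Hopf order over `ℤ_(r)` gives `conn`, `mult`, `peu`

`hpf` = (SX) (`pf_mem`).  `b` = basis of `exists_basis_fun` (its members are `G_ℚ`-equivariant: `hH.equivariant`).

* formal properties of `pf` : additive and `ℚ̄`-homogeneous in `h`;
  `pf lam lam w = lam w`;  `pf mu lam 0 = 0` if `lam ≠ mu` on `Y = conn A H` (orthogonality);
  `pf lam h (w + t) = lam t * pf lam h w` for `t ∈ Y`.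
* `mult_of_pf` : let `σ ∈ I_A`, `mu := σ ∘ lam ∘ act σ⁻¹` (a character).  If `mu ≠ lam` on `Y`: write
  `lam = ∑ c i • b i`, `c i ∈ A` (`char_mem_span`, `mem_span_iff_of_basis`); then `mu = ∑ σ (c i) • b i` and
  `1 = pf mu mu 0 - pf mu lam 0 = ∑ (σ (c i) - c i) * pf mu (b i) 0 ∈ 𝔪_A`
  (`Bridge.valuation_sub_lt_one_of_mem_inertia`): contradiction.  So `mu = lam` on `Y`, and for `v ∈ Y`:
  `lam (act σ v) = mu (act σ v) = σ (lam v)` (`act_mem_conn`).
* `peu_of_pf` : `lam w = pf lam lam w = ∑ c i * pf lam (b i) w`; `lam w` is a unit, all terms are in `A`, so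
  `β := pf lam (b i) w` is a unit for some `i`.  For `σ ∈ I_A`: `σ β = pf lam (b i) (act σ w)` (reindex the sum
  over `Y` by `act σ`, use equivariance of `b i` and `mult_of_pf`) `= lam (act σ w - w) * β`.
-/

set_option autoImplicit false

noncomputable section

namespace Fermat.Agent.MAZ

open Fermat.Agent.FLAT (Qb GQ Zl IsHopfOrder)

section PfKit

variable {r : ℕ} {A : ValuationSubring Qb} {X : Type} [AddCommGroup X]
  {H : Subalgebra (Zl r) (X → Qb)}

theorem pm_pf_eq [Fintype (conn A H)] (lam : AddChar X Qb) (h : X → Qb) (w : X) :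
    pf A H lam h w = (Nat.card (conn A H) : Qb)⁻¹ * ∑ y : conn A H, h (w + y) * lam (-(y : X)) := by
  rw [pf, finsum_eq_sum_of_fintype]

theorem pm_pf_sum [Finite X] {n : ℕ} (lam : AddChar X Qb) (c : Fin n → Qb) (b : Fin n → X → Qb)
    (w : X) : pf A H lam (∑ i, c i • b i) w = ∑ i, c i * pf A H lam (b i) w := by
  have := Fintype.ofFinite (conn A H)
  simp_rw [pm_pf_eq, Finset.sum_apply, Pi.smul_apply, smul_eq_mul, Finset.sum_mul, Finset.mul_sum]
  rw [Finset.sum_comm]
  refine Finset.sum_congr rfl fun i _ => Finset.sum_congr rfl fun y _ => ?_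
  ring

theorem pm_card_ne_zero [Finite X] : (Nat.card (conn A H) : Qb) ≠ 0 := by
  exact_mod_cast Nat.card_pos.ne'

theorem pm_pf_self [Finite X] (lam : AddChar X Qb) (w : X) :
    pf A H lam (fun x => lam x) w = lam w := by
  have := Fintype.ofFinite (conn A H)
  rw [pm_pf_eq]
  have : ∀ y : conn A H, lam (w + y) * lam (-(y : X)) = lam w := fun y => by
    rw [← AddChar.map_add_eq_mul, add_neg_cancel_right]
  rw [Finset.sum_congr rfl (fun y _ => this y), Finset.sum_const, Finset.card_univ, nsmul_eq_mul,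
    ← Nat.card_eq_fintype_card, ← mul_assoc, inv_mul_cancel₀ pm_card_ne_zero, one_mul]

theorem pm_pf_ne [Finite X] {lam mu : AddChar X Qb} (hne : ∃ y ∈ conn A H, mu y ≠ lam y) :
    pf A H mu (fun x => lam x) 0 = 0 := by
  have := Fintype.ofFinite (conn A H)
  rw [pm_pf_eq]
  set ψ : AddChar (conn A H) Qb := (lam * mu⁻¹).compAddMonoidHom (conn A H).subtype with hψ
  have h1 : ψ ≠ 1 := by
    intro h1
    obtain ⟨y, hy, hyne⟩ := hne
    apply hyne
    have h2 : (lam * mu⁻¹) y = 1 := DFunLike.congr_fun h1 (⟨y, hy⟩ : conn A H)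
    rw [AddChar.mul_apply, AddChar.inv_apply, AddChar.map_neg_eq_inv] at h2
    have h3 : mu y ≠ 0 := (mu.val_isUnit y).ne_zero
    field_simp at h2
    exact h2.symm
  have h2 : ∑ y : conn A H, lam (0 + (y : X)) * mu (-(y : X)) = ∑ y : conn A H, ψ y :=
    Finset.sum_congr rfl fun y _ => by
      rw [zero_add]
      rfl
  rw [h2, pp_sum_apply ψ h1, mul_zero]

theorem pm_pf_add [Finite X] (lam : AddChar X Qb) (h : X → Qb) (w : X) {t : X}
    (ht : t ∈ conn A H) : pf A H lam h (w + t) = lam t * pf A H lam h w := by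
  have := Fintype.ofFinite (conn A H)
  have key : ∑ y : conn A H, h (w + t + y) * lam (-(y : X)) =
      ∑ y : conn A H, lam t * (h (w + y) * lam (-(y : X))) := by
    refine Fintype.sum_equiv (Equiv.addLeft (⟨t, ht⟩ : conn A H))
      (fun y : conn A H => h (w + t + y) * lam (-(y : X)))
      (fun y : conn A H => lam t * (h (w + y) * lam (-(y : X)))) fun y => ?_
    simp only [Equiv.coe_addLeft, AddSubgroup.coe_add]
    rw [add_assoc, neg_add, AddChar.map_add_eq_mul, AddChar.map_neg_eq_inv lam t]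
    have h3 : lam t ≠ 0 := (lam.val_isUnit t).ne_zero
    field_simp
  rw [pm_pf_eq, pm_pf_eq, key, ← Finset.mul_sum]
  ring

end PfKit

variable {r : ℕ} [Fact r.Prime] {A : ValuationSubring Qb} {X : Type} [AddCommGroup X]
  {act : GQ →* AddMonoid.End X} {H : Subalgebra (Zl r) (X → Qb)}

theorem pm_act_inv (act : GQ →* AddMonoid.End X) (σ : GQ) (x : X) : act σ (act σ⁻¹ x) = x := by
  have : act (σ * σ⁻¹) x = act σ (act σ⁻¹ x) := by rw [map_mul]; rfl
  rw [← this, mul_inv_cancel, map_one]; rfl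

theorem pm_inv_act (act : GQ →* AddMonoid.End X) (σ : GQ) (x : X) : act σ⁻¹ (act σ x) = x := by
  have : act (σ⁻¹ * σ) x = act σ⁻¹ (act σ x) := by rw [map_mul]; rfl
  rw [← this, inv_mul_cancel, map_one]; rfl

/-- the conjugate character `σ ∘ lam ∘ act σ⁻¹` -/
def pmConj (act : GQ →* AddMonoid.End X) (σ : GQ) (lam : AddChar X Qb) : AddChar X Qb where
  toFun x := σ (lam (act σ⁻¹ x))
  map_zero_eq_one' := by rw [map_zero, AddChar.map_zero_eq_one, map_one]
  map_add_eq_mul' a b := by rw [map_add, AddChar.map_add_eq_mul, map_mul]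

theorem pmConj_apply (act : GQ →* AddMonoid.End X) (σ : GQ) (lam : AddChar X Qb) (x : X) :
    pmConj act σ lam x = σ (lam (act σ⁻¹ x)) := rfl

/-- a character in terms of the basis -/
theorem pm_exists_coeff [Finite X] (hA : A.LiesOverPrime r) (hH : IsHopfOrder r act H)
    (lam : AddChar X Qb) : ∃ (n : ℕ) (b : Fin n → X → Qb) (c : Fin n → Qb), (∀ i, b i ∈ H) ∧
      (∀ i, c i ∈ A) ∧ (fun x => lam x) = ∑ i, c i • b i := by
  obtain ⟨n, b, hb, -, -, hspan⟩ := exists_basis_fun hH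
  obtain ⟨c, hc, e⟩ := (mem_span_iff_of_basis hA hb hspan).mp (char_mem_span hA hH lam)
  exact ⟨n, b, c, hb, hc, e⟩

theorem mult_of_pf [Finite X] (hA : A.LiesOverPrime r) (hH : IsHopfOrder r act H)
    (hpf : ∀ (lam : AddChar X Qb) (h : X → Qb), h ∈ H → ∀ w : X, pf A H lam h w ∈ A) {σ : GQ}
    (hσ : σ ∈ A.inertiaSubgroupIn ℚ) {v : X} (hv : v ∈ conn A H) (lam : AddChar X Qb) :
    lam (act σ v) = σ (lam v) := by
  obtain ⟨n, b, c, hb, hc, e⟩ := pm_exists_coeff hA hH lam
  set mu := pmConj act σ lam with hmu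
  have emu : (fun x => mu x) = ∑ i, σ (c i) • b i := by
    funext x
    have h1 := congrFun e (act σ⁻¹ x)
    rw [hmu, pmConj_apply]
    beta_reduce at h1
    rw [h1, Finset.sum_apply, Finset.sum_apply, map_sum]
    refine Finset.sum_congr rfl fun i _ => ?_
    rw [Pi.smul_apply, Pi.smul_apply, smul_eq_mul, smul_eq_mul, map_mul,
      ← hH.equivariant (b i) (hb i) σ (act σ⁻¹ x), pm_act_inv]
  have heq : ∀ y ∈ conn A H, mu y = lam y := by
    by_contra hcon
    push Not at hcon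
    have h1 : pf A H mu (fun x => mu x) 0 = 1 := by
      rw [pm_pf_self, AddChar.map_zero_eq_one]
    have h2 : pf A H mu (fun x => lam x) 0 = 0 := pm_pf_ne hcon
    rw [emu, pm_pf_sum] at h1
    rw [e, pm_pf_sum] at h2
    have h3 : ∑ i, (σ (c i) - c i) * pf A H mu (b i) 0 = 1 := by
      simp_rw [sub_mul]
      rw [Finset.sum_sub_distrib, h1, h2, sub_zero]
    have h4 : A.valuation (∑ i, (σ (c i) - c i) * pf A H mu (b i) 0) < 1 := by
      refine A.valuation.map_sum_lt one_ne_zero fun i _ => ?_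
      rw [map_mul]
      exact lt_of_le_of_lt
        (mul_le_of_le_one_right' ((A.valuation_le_one_iff _).mpr (hpf mu (b i) (hb i) 0)))
        (Bridge.valuation_sub_lt_one_of_mem_inertia hσ ((A.valuation_le_one_iff _).mpr (hc i)))
    rw [h3, map_one] at h4
    exact lt_irrefl _ h4
  rw [← heq _ (act_mem_conn hA hH hσ hv), hmu, pmConj_apply, pm_inv_act]

theorem peu_of_pf [Finite X] (hA : A.LiesOverPrime r) (hH : IsHopfOrder r act H)
    (hpf : ∀ (lam : AddChar X Qb) (h : X → Qb), h ∈ H → ∀ w : X, pf A H lam h w ∈ A)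
    (w : X) (lam : AddChar X Qb) : ∃ β : Qb, A.valuation β = 1 ∧
      ∀ σ ∈ A.inertiaSubgroupIn ℚ, σ β = lam (act σ w - w) * β := by
  obtain ⟨n, b, c, hb, hc, e⟩ := pm_exists_coeff hA hH lam
  have hcard : Nat.card X ≠ 0 := Nat.card_pos.ne'
  have hlw : A.valuation (lam w) = 1 := by
    apply Bridge.valuation_eq_one_of_pow_eq_one hcard
    rw [← AddChar.map_nsmul_eq_pow, card_nsmul_eq_zero', AddChar.map_zero_eq_one]
  have h1 : lam w = ∑ i, c i * pf A H lam (b i) w := by
    rw [← pm_pf_sum, ← e, pm_pf_self]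
  obtain ⟨i, hi⟩ : ∃ i, A.valuation (pf A H lam (b i) w) = 1 := by
    by_contra hcon
    push Not at hcon
    have h2 : A.valuation (∑ i, c i * pf A H lam (b i) w) < 1 := by
      refine A.valuation.map_sum_lt one_ne_zero fun i _ => ?_
      rw [map_mul]
      exact lt_of_le_of_lt (mul_le_of_le_one_left' ((A.valuation_le_one_iff _).mpr (hc i)))
        (lt_of_le_of_ne ((A.valuation_le_one_iff _).mpr (hpf lam (b i) (hb i) w)) (hcon i))
    rw [← h1, hlw] at h2
    exact lt_irrefl _ h2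
  refine ⟨pf A H lam (b i) w, hi, fun σ hσ => ?_⟩
  have := Fintype.ofFinite (conn A H)
  have hσ' : σ⁻¹ ∈ A.inertiaSubgroupIn ℚ := inv_mem hσ
  let E : conn A H ≃ conn A H :=
    { toFun := fun y => ⟨act σ y, act_mem_conn hA hH hσ y.2⟩
      invFun := fun y => ⟨act σ⁻¹ y, act_mem_conn hA hH hσ' y.2⟩
      left_inv := fun y => Subtype.ext (pm_inv_act act σ y)
      right_inv := fun y => Subtype.ext (pm_act_inv act σ y) }
  have h2 : σ (pf A H lam (b i) w) = pf A H lam (b i) (act σ w) := by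
    rw [pm_pf_eq, pm_pf_eq, map_mul, map_inv₀, map_natCast, map_sum]
    congr 1
    refine Fintype.sum_equiv E (fun y : conn A H => σ (b i (w + y) * lam (-(y : X))))
      (fun y : conn A H => b i (act σ w + y) * lam (-(y : X))) fun y => ?_
    have h3 : ((E y : conn A H) : X) = act σ (y : X) := rfl
    beta_reduce
    rw [h3, map_mul, ← hH.equivariant (b i) (hb i) σ (w + y), map_add,
      ← mult_of_pf hA hH hpf hσ ((conn A H).neg_mem y.2) lam, map_neg]
  have h3 : act σ w = w + (act σ w - w) := by abel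
  rw [h2]
  conv_lhs => rw [h3]
  exact pm_pf_add lam (b i) w (act_sub_mem_conn hA hH hσ w)

/-- **(LOC)** : the local conditions at `r` of `Adm` hold for `X0 = conn Ar H`. -/
theorem adm_of_isHopfOrder {N : ℕ} {Ar AN : ValuationSubring Qb} (hAr : Ar.LiesOverPrime r)
    [Finite X] (hH : IsHopfOrder r act H) (hX : ∀ v : X, ∃ k : ℕ, r ^ k • v = 0)
    (hsm : ∃ L : IntermediateField ℚ Qb, FiniteDimensional ℚ L ∧
      ∀ σ : GQ, (∀ y ∈ L, σ y = y) → ∀ v : X, act σ v = v)
    (hunr : ∀ q : ℕ, q.Prime → q ≠ r → q ≠ N → ∃ B : ValuationSubring Qb, B.LiesOverPrime q ∧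
      ∀ σ ∈ B.inertiaSubgroupIn ℚ, ∀ v : X, act σ v = v)
    (hU : ∀ σ : GQ, (∀ ζ : Qb, ζ ^ r = 1 → σ ζ = ζ) → ∃ n : ℕ, ∀ v : X, act (σ ^ r ^ n) v = v)
    (Xf : AddSubgroup X) (hXf : ∀ σ ∈ AN.inertiaSubgroupIn ℚ, ∀ v ∈ Xf, act σ v = v) :
    Adm r N Ar AN act (conn Ar H) Xf := by
  have hrank := card_le_index_mul_index hAr hH hX hU
  have hpf : ∀ (lam : AddChar X Qb) (h : X → Qb), h ∈ H → ∀ w : X, pf Ar H lam h w ∈ Ar :=
    fun lam h hh w => pf_mem hAr hH hX hrank lam hh w
  exact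
    { finite := inferInstance
      rgroup := hX
      smooth := hsm
      unram := hunr
      unip := hU
      fixN := hXf
      conn := fun σ hσ v => act_sub_mem_conn hAr hH hσ v
      mult := fun σ hσ v hv lam => mult_of_pf hAr hH hpf hσ hv lam
      peu := fun w lam => peu_of_pf hAr hH hpf w lam }

end Fermat.Agent.MAZ
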