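import Fermat.Agent.MAZ.Loc.Defs
import Fermat.Agent.Common.PlaceBridgeHens

/-!
# MAZ / Loc / [LOC-BASIC]

Integrality of the values, the criterion for `conn`, `(σ - 1) X ⊆ X⁰` for `σ` in the inertia group.

RECIPES.
* `apply_mem` : `h` is integral over `Zl r` (`IsIntegral.of_mem_of_fg H hH.fg`), so is `h x`
  (`Pi.evalAlgHom`), `Zl r` maps into `A` (`FLAT.algebraMap_mem_iff_mem_Zl`), `A` is integrally closed.
* `mem_conn_iff` (`←`) : `Φ = fun p => h (p.1 + p.2) ∈ box H H`; by `Submodule.span_induction` every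
  `Φ ∈ box H H` satisfies `v (Φ (x, y) - Φ (0, y)) < 1` when `v (f x - f 0) < 1` for all `f ∈ H`.
* `act_sub_mem_conn` : every `Φ ∈ box H H` satisfies `v (Φ (act σ v, y) - Φ (v, y)) < 1`
  (`f (act σ v) = σ (f v)`, `Bridge.valuation_sub_lt_one_of_mem_inertia`); take `y = - v`.
-/

set_option autoImplicit false

noncomputable section

namespace Fermat.Agent.MAZ

open Fermat.Agent.FLAT (Qb GQ Zl IsHopfOrder)

variable {r : ℕ} [Fact r.Prime] {A : ValuationSubring Qb} {X : Type} [AddCommGroup X]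
  {act : GQ →* AddMonoid.End X} {H : Subalgebra (Zl r) (X → Qb)}

theorem algebraMap_Zl_mem (hA : A.LiesOverPrime r) (a : Zl r) : algebraMap (Zl r) Qb a ∈ A :=
  (Fermat.Agent.FLAT.algebraMap_mem_iff_mem_Zl hA _).2 a.2

theorem apply_mem (hA : A.LiesOverPrime r) (hH : IsHopfOrder r act H) {h : X → Qb} (hh : h ∈ H)
    (x : X) : h x ∈ A := by
  have hint : IsIntegral (Zl r) h := IsIntegral.of_mem_of_fg H hH.fg h hh
  have hint0 : IsIntegral (Zl r) (h x) := hint.map (Pi.evalAlgHom (Zl r) (fun _ : X => Qb) x)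
  obtain ⟨p, hp, hpx⟩ := hint0
  let φ : Zl r →+* A := (algebraMap (Zl r) Qb).codRestrict A.toSubring (algebraMap_Zl_mem hA)
  have hA' : IsIntegral A (h x) := by
    refine ⟨p.map φ, hp.map φ, ?_⟩
    rw [Polynomial.eval₂_map]
    exact hpx
  obtain ⟨y, hy⟩ := IsIntegrallyClosed.isIntegral_iff.1 hA'
  rw [← hy]
  exact y.2

/-- congruences propagate through `box H H` in the first variable. -/
theorem box_congr_left (hA : A.LiesOverPrime r) (hH : IsHopfOrder r act H) {x x' : X}
    (hx : ∀ f ∈ H, A.valuation (f x - f x') < 1) {Φ : X × X → Qb}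
    (hΦ : Φ ∈ Fermat.Agent.FLAT.box (Subalgebra.toSubmodule H) (Subalgebra.toSubmodule H))
    (y : X) : A.valuation (Φ (x, y) - Φ (x', y)) < 1 := by
  unfold Fermat.Agent.FLAT.box at hΦ
  induction hΦ using Submodule.span_induction with
  | mem Φ hΦ =>
    obtain ⟨f, hf, g, hg, rfl⟩ := hΦ
    have e : f x * g y - f x' * g y = (f x - f x') * g y := by ring
    show A.valuation (f x * g y - f x' * g y) < 1
    rw [e, map_mul]
    have h1 : A.valuation (g y) ≤ 1 := (A.valuation_le_one_iff _).2 (apply_mem hA hH hg y)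
    calc A.valuation (f x - f x') * A.valuation (g y) ≤ A.valuation (f x - f x') * 1 := by gcongr
      _ < 1 := by simpa using hx f hf
  | zero => simp
  | add Φ Ψ _ _ h1 h2 =>
    have e : (Φ + Ψ) (x, y) - (Φ + Ψ) (x', y) =
        (Φ (x, y) - Φ (x', y)) + (Ψ (x, y) - Ψ (x', y)) := by
      simp only [Pi.add_apply]; ring
    rw [e]
    exact Valuation.map_add_lt _ h1 h2
  | smul a Φ _ h1 =>
    have e : (a • Φ) (x, y) - (a • Φ) (x', y) =
        algebraMap (Zl r) Qb a * (Φ (x, y) - Φ (x', y)) := by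
      simp only [Pi.smul_apply, Algebra.smul_def]; ring
    rw [e, map_mul]
    have h2 : A.valuation (algebraMap (Zl r) Qb a) ≤ 1 :=
      (A.valuation_le_one_iff _).2 (algebraMap_Zl_mem hA a)
    calc A.valuation (algebraMap (Zl r) Qb a) * A.valuation (Φ (x, y) - Φ (x', y))
        ≤ 1 * A.valuation (Φ (x, y) - Φ (x', y)) := by gcongr
      _ < 1 := by simpa using h1

theorem mem_conn_iff (hA : A.LiesOverPrime r) (hH : IsHopfOrder r act H) {x : X} :
    x ∈ conn A H ↔ ∀ h ∈ H, A.valuation (h x - h 0) < 1 := by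
  rw [mem_conn]
  constructor
  · intro hx h hh
    have := hx h hh 0
    rwa [add_zero] at this
  · intro hx h hh y
    have := box_congr_left hA hH hx (hH.comul h hh) y
    simpa using this

theorem act_sub_mem_conn (hA : A.LiesOverPrime r) (hH : IsHopfOrder r act H) {σ : GQ}
    (hσ : σ ∈ A.inertiaSubgroupIn ℚ) (v : X) : act σ v - v ∈ conn A H := by
  rw [mem_conn_iff hA hH]
  intro h hh
  have hx : ∀ f ∈ H, A.valuation (f (act σ v) - f v) < 1 := by
    intro f hf
    rw [hH.equivariant f hf σ v]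
    exact Fermat.Agent.Bridge.valuation_sub_lt_one_of_mem_inertia hσ
      ((A.valuation_le_one_iff _).2 (apply_mem hA hH hf v))
  have := box_congr_left hA hH hx (hH.comul h hh) (-v)
  simpa [sub_eq_add_neg] using this

theorem act_mem_conn (hA : A.LiesOverPrime r) (hH : IsHopfOrder r act H) {σ : GQ}
    (hσ : σ ∈ A.inertiaSubgroupIn ℚ) {v : X} (hv : v ∈ conn A H) : act σ v ∈ conn A H := by
  have := (conn A H).add_mem (act_sub_mem_conn hA hH hσ v) hv
  simpa using this

/-- a basis of `H` over `Zl r` which is a basis of all functions over `ℚ̄`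
(from `FLAT.IsHopfOrder.exists_basis` and `hH.span_top`). -/
theorem exists_basis_fun (hH : IsHopfOrder r act H) :
    ∃ (n : ℕ) (b : Fin n → X → Qb), (∀ i, b i ∈ H) ∧ LinearIndependent Qb b ∧
      Submodule.span Qb (Set.range b) = ⊤ ∧
      ∀ h ∈ H, ∃ c : Fin n → Zl r, h = ∑ i, c i • b i := by
  obtain ⟨n, b, hb⟩ := hH.exists_basis
  have hrep : ∀ h ∈ H, ∃ c : Fin n → Zl r, h = ∑ i, c i • ((b i : H) : X → Qb) := by
    intro h hh
    refine ⟨fun i => b.repr ⟨h, hh⟩ i, ?_⟩
    have h1 := congrArg (Subalgebra.val H) (b.sum_repr ⟨h, hh⟩)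
    rw [map_sum] at h1
    simp only [map_smul] at h1
    exact h1.symm
  refine ⟨n, fun i => ((b i : H) : X → Qb), fun i => (b i).2, hb, ?_, hrep⟩
  rw [eq_top_iff, ← hH.span_top, Submodule.span_le]
  intro h hh
  obtain ⟨c, hc⟩ := hrep h hh
  rw [hc]
  refine Submodule.sum_mem _ fun i _ => ?_
  have e : c i • ((b i : H) : X → Qb) = (algebraMap (Zl r) Qb (c i)) • ((b i : H) : X → Qb) := by
    funext x
    simp only [Pi.smul_apply, Algebra.smul_def, Algebra.algebraMap_self, RingHom.id_apply]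
  rw [e]
  exact Submodule.smul_mem _ _ (Submodule.subset_span ⟨i, rfl⟩)

/-- the elements of the `A`-span of `H` in terms of the basis.
(`hA` is needed: otherwise `Zl r ⊄ A` and the statement fails, e.g. `X = 0`, `H = Zl r`.) -/
theorem mem_span_iff_of_basis (hA : A.LiesOverPrime r) {n : ℕ} {b : Fin n → X → Qb}
    (hb : ∀ i, b i ∈ H) (hspan : ∀ h ∈ H, ∃ c : Fin n → Zl r, h = ∑ i, c i • b i) {f : X → Qb} :
    f ∈ Submodule.span A (H : Set (X → Qb)) ↔ ∃ c : Fin n → Qb, (∀ i, c i ∈ A) ∧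
      f = ∑ i, c i • b i := by
  constructor
  · intro hf
    induction hf using Submodule.span_induction with
    | mem h hh =>
      obtain ⟨c, hc⟩ := hspan h hh
      refine ⟨fun i => algebraMap (Zl r) Qb (c i), fun i => algebraMap_Zl_mem hA (c i), ?_⟩
      rw [hc]
      refine Finset.sum_congr rfl fun i _ => ?_
      funext x
      simp only [Pi.smul_apply, Algebra.smul_def, Algebra.algebraMap_self, RingHom.id_apply]
    | zero => exact ⟨fun _ => 0, fun _ => A.zero_mem, by simp⟩
    | add f g _ _ h1 h2 =>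
      obtain ⟨c, hc, rfl⟩ := h1
      obtain ⟨d, hd, rfl⟩ := h2
      refine ⟨fun i => c i + d i, fun i => A.add_mem _ _ (hc i) (hd i), ?_⟩
      rw [← Finset.sum_add_distrib]
      exact Finset.sum_congr rfl fun i _ => (add_smul _ _ _).symm
    | smul a f _ h1 =>
      obtain ⟨c, hc, rfl⟩ := h1
      refine ⟨fun i => (a : Qb) * c i, fun i => A.mul_mem _ _ a.2 (hc i), ?_⟩
      rw [Finset.smul_sum]
      refine Finset.sum_congr rfl fun i _ => ?_
      rw [mul_smul]
      rfl
  · rintro ⟨c, hc, rfl⟩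
    refine Submodule.sum_mem _ fun i _ => ?_
    exact Submodule.smul_mem _ (⟨c i, hc i⟩ : A) (Submodule.subset_span (hb i))

end Fermat.Agent.MAZ
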