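import Mathlib
import Fermat.Agent.FLAT.Alg.Order
import Fermat.Agent.FLAT.Desc.Star
import Fermat.Agent.MAZ.Abs.Defs

/-!
# MAZ / Loc : structure theory of Hopf orders over `ℤ_(r)` at a place `A | r` : definitions

`X` finite abelian group with `act : GQ →* AddMonoid.End X`, `H : Subalgebra (Zl r) (X → Qb)` with
`FLAT.IsHopfOrder r act H`.

* `conn A H`  : the connected part `X⁰ = {x | h (x + y) ≡ h y mod 𝔪_A for all h ∈ H, y}` (a subgroup by
  definition; for Hopf orders `y = 0` suffices : `mem_conn_iff`).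
* `pair ξ h = ∑ x, ξ x * h x` : the pairing between the group algebra `ℚ̄[X]` (functions `ξ`) and the
  functions on `X`.
* `dual A H`  : the dual lattice `{ξ | pair ξ h ∈ A for all h ∈ H}` (= `A ⊗` the Cartier dual order).
* `ft ξ lam = ∑ x, ξ x * lam x` : `ξ` as a function on the dual group `AddChar X Qb`.
* `dconn A H` : the connected part of the dual group with respect to the dual order.
* `pf A H lam h w` : partial Fourier coefficient of `h` along `w + X⁰`.
* `subAct`, `resAlg`, `subOrd` / `quotAct`, `pullAlg`, `quotOrd` : sub and quotient.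
-/

set_option autoImplicit false

noncomputable section

namespace Fermat.Agent.MAZ

open Fermat.Agent.FLAT (Qb GQ Zl)

variable {r : ℕ} {X : Type} [AddCommGroup X]

/-- the connected part. -/
def conn (A : ValuationSubring Qb) (H : Subalgebra (Zl r) (X → Qb)) : AddSubgroup X where
  carrier := {x | ∀ h ∈ H, ∀ y : X, A.valuation (h (x + y) - h y) < 1}
  zero_mem' := fun h _ y => by simp
  add_mem' := fun {a b} ha hb h hh y => by
    have h1 := ha h hh (b + y)
    have h2 := hb h hh y
    have e : h (a + b + y) - h y = (h (a + (b + y)) - h (b + y)) + (h (b + y) - h y) := by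
      rw [add_assoc]; ring
    rw [e]
    exact lt_of_le_of_lt (A.valuation.map_add _ _) (max_lt h1 h2)
  neg_mem' := fun {a} ha h hh y => by
    have h1 := ha h hh (-a + y)
    rw [add_neg_cancel_left, ← Valuation.map_neg, neg_sub] at h1
    exact h1

theorem mem_conn {A : ValuationSubring Qb} {H : Subalgebra (Zl r) (X → Qb)} {x : X} :
    x ∈ conn A H ↔ ∀ h ∈ H, ∀ y : X, A.valuation (h (x + y) - h y) < 1 := Iff.rfl

/-- the pairing between `ℚ̄[X]` and `Map(X, ℚ̄)`. -/
def pair (ξ h : X → Qb) : Qb := ∑ᶠ x, ξ x * h x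

/-- `ξ ∈ ℚ̄[X]` as a function on the characters. -/
def ft (ξ : X → Qb) (lam : AddChar X Qb) : Qb := ∑ᶠ x, ξ x * lam x

/-- the dual lattice. -/
def dual (A : ValuationSubring Qb) (H : Subalgebra (Zl r) (X → Qb)) : Set (X → Qb) :=
  {ξ | ∀ h ∈ H, pair ξ h ∈ A}

/-- the connected part of the dual group. -/
def dconn (A : ValuationSubring Qb) (H : Subalgebra (Zl r) (X → Qb)) :
    Subgroup (AddChar X Qb) where
  carrier := {lam | ∀ ξ ∈ dual A H, ∀ mu : AddChar X Qb,
    A.valuation (ft ξ (lam * mu) - ft ξ mu) < 1}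
  one_mem' := fun ξ _ mu => by simp
  mul_mem' := fun {a b} ha hb ξ hξ mu => by
    have h1 := ha ξ hξ (b * mu)
    have h2 := hb ξ hξ mu
    have e : ft ξ (a * b * mu) - ft ξ mu =
        (ft ξ (a * (b * mu)) - ft ξ (b * mu)) + (ft ξ (b * mu) - ft ξ mu) := by
      rw [mul_assoc]; ring
    rw [e]
    exact lt_of_le_of_lt (A.valuation.map_add _ _) (max_lt h1 h2)
  inv_mem' := fun {a} ha ξ hξ mu => by
    have h1 := ha ξ hξ (a⁻¹ * mu)
    rw [mul_inv_cancel_left, ← Valuation.map_neg, neg_sub] at h1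
    exact h1

theorem mem_dconn {A : ValuationSubring Qb} {H : Subalgebra (Zl r) (X → Qb)}
    {lam : AddChar X Qb} : lam ∈ dconn A H ↔ ∀ ξ ∈ dual A H, ∀ mu : AddChar X Qb,
      A.valuation (ft ξ (lam * mu) - ft ξ mu) < 1 := Iff.rfl

/-- partial Fourier coefficient along the coset `w + X⁰`. -/
def pf (A : ValuationSubring Qb) (H : Subalgebra (Zl r) (X → Qb)) (lam : AddChar X Qb)
    (h : X → Qb) (w : X) : Qb :=
  (Nat.card (conn A H) : Qb)⁻¹ * ∑ᶠ y : conn A H, h (w + y) * lam (-(y : X))

/-- pull back of functions along a map, as an algebra homomorphism. -/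
def compAlg (r : ℕ) {S T : Type} (φ : S → T) : (T → Qb) →ₐ[Zl r] (S → Qb) where
  toFun f := fun s => f (φ s)
  map_one' := rfl
  map_mul' _ _ := rfl
  map_zero' := rfl
  map_add' _ _ := rfl
  commutes' _ := rfl

@[simp] theorem compAlg_apply (r : ℕ) {S T : Type} (φ : S → T) (f : T → Qb) (s : S) :
    compAlg r φ f s = f (φ s) := rfl

/-- the restricted action on a stable subgroup. -/
def subAct (act : GQ →* AddMonoid.End X) (F : AddSubgroup X)
    (hF : ∀ σ : GQ, ∀ v ∈ F, act σ v ∈ F) : GQ →* AddMonoid.End F where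
  toFun σ := ((act σ).comp F.subtype).codRestrict F (fun v => hF σ v v.2)
  map_one' := by
    ext v
    change act 1 (v : X) = v
    rw [map_one]; rfl
  map_mul' σ τ := by
    ext v
    change act (σ * τ) (v : X) = act σ (act τ (v : X))
    rw [map_mul]; rfl

@[simp] theorem coe_subAct (act : GQ →* AddMonoid.End X) (F : AddSubgroup X)
    (hF : ∀ σ : GQ, ∀ v ∈ F, act σ v ∈ F) (σ : GQ) (v : F) :
    ((subAct act F hF σ v : F) : X) = act σ (v : X) := rfl

/-- the induced order on a subgroup: the restrictions of the elements of `H`. -/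
def subOrd (H : Subalgebra (Zl r) (X → Qb)) (F : AddSubgroup X) : Subalgebra (Zl r) (F → Qb) :=
  H.map (compAlg r (Subtype.val : F → X))

/-- the induced order on a quotient: the functions whose pull back lies in `H`. -/
def quotOrd (H : Subalgebra (Zl r) (X → Qb)) (F : AddSubgroup X) :
    Subalgebra (Zl r) ((X ⧸ F) → Qb) :=
  H.comap (compAlg r (QuotientAddGroup.mk : X → X ⧸ F))

theorem mem_quotOrd {H : Subalgebra (Zl r) (X → Qb)} {F : AddSubgroup X} {f : (X ⧸ F) → Qb} :
    f ∈ quotOrd H F ↔ (fun x : X => f (x : X ⧸ F)) ∈ H := Iff.rfl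

end Fermat.Agent.MAZ
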