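import Fermat.Agent.MAZ.Loc.Basic

/-!
# MAZ / Loc / [LOC-DUAL] : the dual lattice is an integral algebra; characters lie in `A ⊗ H`

RECIPES (`b` = the basis of `exists_basis_fun`, `n = #X`).
* `conv_mem_dual` : `pair (conv ξ η) h = ∑_{x,y} ξ x η y h (x + y)`; `fun p => h (p.1 + p.2) ∈ box H H`,
  and for `Φ = f ⊗ g` the double sum is `pair ξ f * pair η g ∈ A`; `Submodule.span_induction`.
* `ft_mem` (**D1**) : let `ξ_i` be the dual basis (`pair (ξ_i) (b j) = δ_ij`; it exists because `pair`
  is a perfect pairing on `X → Qb` and `b` is a basis).  `dual A H = ⊕ A ξ_i`.  `M := ∑ A (ft ξ_i lam)`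
  is a finitely generated `A`-submodule of `Qb`, `≠ 0` (`ft (single 0 1) lam = 1` and
  `single 0 1 ∈ dual`), stable under multiplication by `ft ξ lam` for `ξ ∈ dual` (`ft_conv`,
  `conv_mem_dual`).  So `ft ξ lam` is integral over `A` (`isIntegral_of_smul_mem_submodule`), hence in
  `A` (`A` integrally closed in its fraction field `Qb`).
* `mem_span_of_forall_dual` : `f = ∑ pair (ξ_i) f • b i`.
* `char_mem_span` (**CH**) : `pair ξ lam = ft ξ lam ∈ A`.
-/

set_option autoImplicit false
set_option linter.unusedSectionVars false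

noncomputable section

namespace Fermat.Agent.MAZ

open Fermat.Agent.FLAT (Qb GQ Zl IsHopfOrder)

variable {r : ℕ} [Fact r.Prime] {A : ValuationSubring Qb} {X : Type} [AddCommGroup X]
  {act : GQ →* AddMonoid.End X} {H : Subalgebra (Zl r) (X → Qb)}

/-- the point `x` as an element of the group algebra. -/
def pt (x : X) : X → Qb := by
  classical exact Pi.single x 1

/-- convolution = the product of the group algebra. -/
def conv (ξ η : X → Qb) : X → Qb := fun x => ∑ᶠ y, ξ y * η (x - y)

/-! ### formal properties of `pair` -/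

namespace DualAux

theorem pt_self (x : X) : pt x x = 1 := by
  classical
  unfold pt
  exact Pi.single_eq_same x 1

theorem pt_ne {x y : X} (h : y ≠ x) : pt x y = 0 := by
  classical
  unfold pt
  exact Pi.single_eq_of_ne h 1

theorem pair_eq_sum [Fintype X] (ξ h : X → Qb) : pair ξ h = ∑ x, ξ x * h x :=
  finsum_eq_sum_of_fintype _

theorem conv_eq_sum [Fintype X] (ξ η : X → Qb) (x : X) : conv ξ η x = ∑ y, ξ y * η (x - y) :=
  finsum_eq_sum_of_fintype _

theorem ft_eq_pair (ξ : X → Qb) (lam : AddChar X Qb) : ft ξ lam = pair ξ (fun x => lam x) := rfl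

theorem pair_add_left [Finite X] (ξ η h : X → Qb) : pair (ξ + η) h = pair ξ h + pair η h := by
  have := Fintype.ofFinite X
  simp only [pair_eq_sum, Pi.add_apply, add_mul, Finset.sum_add_distrib]

theorem pair_add_right [Finite X] (ξ h k : X → Qb) : pair ξ (h + k) = pair ξ h + pair ξ k := by
  have := Fintype.ofFinite X
  simp only [pair_eq_sum, Pi.add_apply, mul_add, Finset.sum_add_distrib]

theorem pair_smul_left [Finite X] (a : Qb) (ξ h : X → Qb) : pair (a • ξ) h = a * pair ξ h := by
  have := Fintype.ofFinite X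
  simp only [pair_eq_sum, Pi.smul_apply, smul_eq_mul, Finset.mul_sum, mul_assoc]

theorem pair_smul_right [Finite X] (a : Qb) (ξ h : X → Qb) : pair ξ (a • h) = a * pair ξ h := by
  have := Fintype.ofFinite X
  simp only [pair_eq_sum, Pi.smul_apply, smul_eq_mul, Finset.mul_sum]
  exact Finset.sum_congr rfl fun x _ => by ring

theorem pair_zero_left (h : X → Qb) : pair (0 : X → Qb) h = 0 := by
  simp [pair]

theorem pair_zero_right (ξ : X → Qb) : pair ξ (0 : X → Qb) = 0 := by
  simp [pair]

theorem pair_sum_left [Finite X] {ι : Type} (s : Finset ι) (ξ : ι → X → Qb) (h : X → Qb) :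
    pair (∑ i ∈ s, ξ i) h = ∑ i ∈ s, pair (ξ i) h := by
  classical
  induction s using Finset.induction_on with
  | empty => simp [pair_zero_left]
  | insert a s ha ih => rw [Finset.sum_insert ha, Finset.sum_insert ha, pair_add_left, ih]

theorem pair_sum_right [Finite X] {ι : Type} (s : Finset ι) (ξ : X → Qb) (h : ι → X → Qb) :
    pair ξ (∑ i ∈ s, h i) = ∑ i ∈ s, pair ξ (h i) := by
  classical
  induction s using Finset.induction_on with
  | empty => simp [pair_zero_right]
  | insert a s ha ih => rw [Finset.sum_insert ha, Finset.sum_insert ha, pair_add_right, ih]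

theorem pair_zl_smul_right [Finite X] (a : Zl r) (ξ h : X → Qb) :
    pair ξ (a • h) = algebraMap (Zl r) Qb a * pair ξ h := by
  have e : a • h = (algebraMap (Zl r) Qb a) • h := by
    funext x
    rw [Pi.smul_apply, Pi.smul_apply, Algebra.smul_def, smul_eq_mul]
  rw [e, pair_smul_right]

end DualAux

open DualAux

theorem pair_pt [Finite X] (x : X) (h : X → Qb) : pair (pt x) h = h x := by
  unfold pair
  rw [finsum_eq_single _ x (fun y hy => by rw [pt_ne hy, zero_mul]), pt_self, one_mul]

theorem ft_pt [Finite X] (x : X) (lam : AddChar X Qb) : ft (pt x) lam = lam x :=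
  pair_pt x _

theorem pair_pt_right [Finite X] (ξ : X → Qb) (x : X) : pair ξ (pt x) = ξ x := by
  unfold pair
  rw [finsum_eq_single _ x (fun y hy => by rw [pt_ne hy, mul_zero]), pt_self, mul_one]

/-- `pair (conv ξ η) h` as a double sum. -/
theorem pair_conv [Fintype X] (ξ η h : X → Qb) :
    pair (conv ξ η) h = ∑ x, ∑ y, ξ x * η y * h (x + y) := by
  rw [pair_eq_sum]
  simp only [conv_eq_sum, Finset.sum_mul]
  rw [Finset.sum_comm]
  refine Finset.sum_congr rfl fun x _ => ?_
  rw [← Equiv.sum_comp (Equiv.addLeft x)]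
  refine Finset.sum_congr rfl fun y _ => ?_
  simp only [Equiv.coe_addLeft, add_sub_cancel_left]

theorem ft_conv [Finite X] (ξ η : X → Qb) (lam : AddChar X Qb) :
    ft (conv ξ η) lam = ft ξ lam * ft η lam := by
  have := Fintype.ofFinite X
  rw [ft_eq_pair, ft_eq_pair, ft_eq_pair, pair_conv, pair_eq_sum, pair_eq_sum, Finset.sum_mul_sum]
  refine Finset.sum_congr rfl fun x _ => Finset.sum_congr rfl fun y _ => ?_
  rw [AddChar.map_add_eq_mul]
  ring

theorem pair_conv_pt [Finite X] (w : X) (ξ h : X → Qb) :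
    pair (conv (pt w) ξ) h = pair ξ (fun x => h (w + x)) := by
  have := Fintype.ofFinite X
  rw [pair_conv, pair_eq_sum, Finset.sum_eq_single w]
  · simp only [pt_self, one_mul]
  · intro x _ hx
    simp only [pt_ne hx, zero_mul, Finset.sum_const_zero]
  · intro h
    exact absurd (Finset.mem_univ w) h

theorem pt_mem_dual [Finite X] (hA : A.LiesOverPrime r) (hH : IsHopfOrder r act H) (x : X) :
    pt x ∈ dual A H := fun h hh => by
  rw [pair_pt]
  exact apply_mem hA hH hh x

theorem add_mem_dual [Finite X] {ξ η : X → Qb} (hξ : ξ ∈ dual A H) (hη : η ∈ dual A H) :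
    ξ + η ∈ dual A H := fun h hh => by
  rw [pair_add_left]
  exact A.add_mem _ _ (hξ h hh) (hη h hh)

theorem smul_mem_dual [Finite X] {a : Qb} (ha : a ∈ A) {ξ : X → Qb} (hξ : ξ ∈ dual A H) :
    a • ξ ∈ dual A H := fun h hh => by
  rw [pair_smul_left]
  exact A.mul_mem _ _ ha (hξ h hh)

theorem conv_mem_dual [Finite X] (hA : A.LiesOverPrime r) (hH : IsHopfOrder r act H)
    {ξ η : X → Qb} (hξ : ξ ∈ dual A H) (hη : η ∈ dual A H) : conv ξ η ∈ dual A H := by
  have := Fintype.ofFinite X
  intro h hh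
  rw [pair_conv]
  have key : ∀ Φ ∈ FLAT.box (Subalgebra.toSubmodule H) (Subalgebra.toSubmodule H),
      (∑ x, ∑ y, ξ x * η y * Φ (x, y)) ∈ A := by
    intro Φ hΦ
    induction hΦ using Submodule.span_induction with
    | mem Φ hΦ =>
      obtain ⟨f, hf, g, hg, rfl⟩ := hΦ
      have e : (∑ x, ∑ y, ξ x * η y * (f x * g y)) = pair ξ f * pair η g := by
        rw [pair_eq_sum, pair_eq_sum, Finset.sum_mul_sum]
        exact Finset.sum_congr rfl fun x _ => Finset.sum_congr rfl fun y _ => by ring
      rw [e]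
      exact A.mul_mem _ _ (hξ f hf) (hη g hg)
    | zero => simp [A.zero_mem]
    | add Φ Ψ _ _ h1 h2 =>
      have e : (∑ x, ∑ y, ξ x * η y * (Φ + Ψ) (x, y)) =
          (∑ x, ∑ y, ξ x * η y * Φ (x, y)) + ∑ x, ∑ y, ξ x * η y * Ψ (x, y) := by
        simp only [Pi.add_apply, mul_add, Finset.sum_add_distrib]
      rw [e]
      exact A.add_mem _ _ h1 h2
    | smul a Φ _ h1 =>
      have e : (∑ x, ∑ y, ξ x * η y * (a • Φ) (x, y)) =
          algebraMap (Zl r) Qb a * ∑ x, ∑ y, ξ x * η y * Φ (x, y) := by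
        simp only [Pi.smul_apply, Algebra.smul_def, Finset.mul_sum]
        exact Finset.sum_congr rfl fun x _ => Finset.sum_congr rfl fun y _ => by ring
      rw [e]
      exact A.mul_mem _ _ (algebraMap_Zl_mem hA a) h1
  exact key _ (hH.comul h hh)


/-! ### the dual basis -/

namespace DualAux

/-- every linear functional is `pair ξ`. -/
theorem exists_pair_eq [Finite X] (φ : (X → Qb) →ₗ[Qb] Qb) : ∃ ξ : X → Qb, ∀ h, pair ξ h = φ h := by
  have := Fintype.ofFinite X
  refine ⟨fun x => φ (pt x), fun h => ?_⟩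
  have e : h = ∑ x, h x • pt x := by
    funext y
    rw [Finset.sum_apply, Finset.sum_eq_single y]
    · rw [Pi.smul_apply, pt_self, smul_eq_mul, mul_one]
    · intro x _ hx
      rw [Pi.smul_apply, pt_ne hx.symm, smul_zero]
    · intro hy
      exact absurd (Finset.mem_univ y) hy
  conv_rhs => rw [e]
  rw [map_sum, pair_eq_sum]
  exact Finset.sum_congr rfl fun x _ => by rw [map_smul, smul_eq_mul, mul_comm]

theorem eq_of_pair_eq [Finite X] {ξ η : X → Qb} (h : ∀ f, pair ξ f = pair η f) : ξ = η := by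
  funext x
  rw [← pair_pt_right ξ x, ← pair_pt_right η x, h]

/-- the basis of `H`, its dual basis, and the two expansions. -/
theorem exists_dualBasis [Finite X] (hH : IsHopfOrder r act H) :
    ∃ (n : ℕ) (b ξ : Fin n → X → Qb), (∀ i, b i ∈ H) ∧
      (∀ h ∈ H, ∃ c : Fin n → Zl r, h = ∑ i, c i • b i) ∧
      (∀ i j, pair (ξ i) (b j) = if i = j then 1 else 0) ∧
      (∀ f : X → Qb, f = ∑ i, pair (ξ i) f • b i) ∧
      (∀ η : X → Qb, η = ∑ i, pair η (b i) • ξ i) := by
  obtain ⟨n, b, hbH, hli, hsp, hc⟩ := exists_basis_fun hH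
  let B : Module.Basis (Fin n) Qb (X → Qb) := Module.Basis.mk hli hsp.ge
  have hB : ∀ i, B i = b i := fun i => Module.Basis.mk_apply hli hsp.ge i
  choose ξ hξ using fun i => exists_pair_eq (B.coord i)
  have h1 : ∀ i j, pair (ξ i) (b j) = if i = j then 1 else 0 := by
    intro i j
    rw [hξ, ← hB j, Module.Basis.coord_apply, Module.Basis.repr_self, Finsupp.single_apply]
    simp only [eq_comm]
  have h2 : ∀ f : X → Qb, f = ∑ i, pair (ξ i) f • b i := by
    intro f
    conv_lhs => rw [← B.sum_repr f]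
    exact Finset.sum_congr rfl fun i _ => by rw [hξ, hB, Module.Basis.coord_apply]
  refine ⟨n, b, ξ, hbH, hc, h1, h2, fun η => eq_of_pair_eq fun f => ?_⟩
  rw [pair_sum_left]
  conv_lhs => rw [h2 f]
  rw [pair_sum_right]
  exact Finset.sum_congr rfl fun i _ => by rw [pair_smul_left, pair_smul_right, mul_comm]

/-- pairing a member of the dual basis with a `Zl r`-combination of the basis. -/
theorem pair_expansion [Finite X] {n : ℕ} {b ξ : Fin n → X → Qb}
    (h1 : ∀ i j, pair (ξ i) (b j) = if i = j then 1 else 0) (c : Fin n → Zl r) (i : Fin n) :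
    pair (ξ i) (∑ j, c j • b j) = algebraMap (Zl r) Qb (c i) := by
  rw [pair_sum_right, Finset.sum_eq_single i]
  · rw [pair_zl_smul_right, h1, if_pos rfl, mul_one]
  · intro j _ hj
    rw [pair_zl_smul_right, h1, if_neg (Ne.symm hj), mul_zero]
  · intro h
    exact absurd (Finset.mem_univ i) h

theorem mem_of_isIntegral {x : Qb} (hx : IsIntegral A x) : x ∈ A := by
  obtain ⟨y, hy⟩ := IsIntegrallyClosed.isIntegral_iff.mp hx
  rw [← hy]
  exact y.2

end DualAux

/-- **(D1)** -/
theorem ft_mem [Finite X] (hA : A.LiesOverPrime r) (hH : IsHopfOrder r act H) {ξ : X → Qb}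
    (hξ : ξ ∈ dual A H) (lam : AddChar X Qb) : ft ξ lam ∈ A := by
  obtain ⟨n, b, ξ', hbH, hc, h1, -, h3⟩ := exists_dualBasis hH
  -- elements of the dual lattice have their Fourier transform in `M`
  set M : Submodule A Qb := Submodule.span A (Set.range fun i => ft (ξ' i) lam) with hM
  have hmem : ∀ η ∈ dual A H, ft η lam ∈ M := by
    intro η hη
    have e : ft η lam = ∑ i, (⟨pair η (b i), hη _ (hbH i)⟩ : A) • ft (ξ' i) lam := by
      conv_lhs => rw [h3 η]
      rw [ft_eq_pair, pair_sum_left]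
      exact Finset.sum_congr rfl fun i _ => by
        rw [pair_smul_left]
        rfl
    rw [e]
    exact Submodule.sum_mem _ fun i _ => Submodule.smul_mem _ _ (Submodule.subset_span ⟨i, rfl⟩)
  have hdual : ∀ i, ξ' i ∈ dual A H := by
    intro i h hh
    obtain ⟨c, rfl⟩ := hc h hh
    rw [pair_expansion h1]
    exact algebraMap_Zl_mem hA _
  apply mem_of_isIntegral
  refine isIntegral_of_smul_mem_submodule M ?_ (Submodule.fg_span (Set.finite_range _)) _ ?_
  · intro hbot
    have h1 : (1 : Qb) ∈ M := by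
      have := hmem _ (pt_mem_dual hA hH 0)
      rwa [ft_pt, AddChar.map_zero_eq_one] at this
    rw [hbot, Submodule.mem_bot] at h1
    exact one_ne_zero h1
  · intro m hm
    induction hm using Submodule.span_induction with
    | mem m hm =>
      obtain ⟨i, rfl⟩ := hm
      change ft ξ lam * ft (ξ' i) lam ∈ M
      rw [← ft_conv]
      exact hmem _ (conv_mem_dual hA hH hξ (hdual i))
    | zero => rw [smul_zero]; exact M.zero_mem
    | add x y _ _ hx hy => rw [smul_add]; exact M.add_mem hx hy
    | smul a x _ hx => rw [smul_comm]; exact M.smul_mem a hx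

/-- double duality. -/
theorem mem_span_of_forall_dual [Finite X] (hA : A.LiesOverPrime r) (hH : IsHopfOrder r act H)
    {f : X → Qb} (hf : ∀ ξ ∈ dual A H, pair ξ f ∈ A) :
    f ∈ Submodule.span A (H : Set (X → Qb)) := by
  obtain ⟨n, b, ξ', hbH, hc, h1, h2, -⟩ := exists_dualBasis hH
  have hdual : ∀ i, ξ' i ∈ dual A H := by
    intro i h hh
    obtain ⟨c, rfl⟩ := hc h hh
    rw [pair_expansion h1]
    exact algebraMap_Zl_mem hA _
  have e : f = ∑ i, (⟨pair (ξ' i) f, hf _ (hdual i)⟩ : A) • b i := h2 f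
  rw [e]
  exact Submodule.sum_mem _ fun i _ => Submodule.smul_mem _ _ (Submodule.subset_span (hbH i))

theorem pair_mem_of_mem_span [Finite X] {f : X → Qb}
    (hf : f ∈ Submodule.span A (H : Set (X → Qb))) {ξ : X → Qb} (hξ : ξ ∈ dual A H) :
    pair ξ f ∈ A := by
  induction hf using Submodule.span_induction with
  | mem f hf => exact hξ f hf
  | zero => rw [pair_zero_right]; exact A.zero_mem
  | add f g _ _ h1 h2 => rw [pair_add_right]; exact A.add_mem _ _ h1 h2
  | smul a f _ h1 =>
    have e : a • f = (a : Qb) • f := rfl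
    rw [e, pair_smul_right]
    exact A.mul_mem _ _ a.2 h1

/-- **(CH)** every character lies in `A ⊗ H`. -/
theorem char_mem_span [Finite X] (hA : A.LiesOverPrime r) (hH : IsHopfOrder r act H)
    (lam : AddChar X Qb) : (fun x => lam x) ∈ Submodule.span A (H : Set (X → Qb)) :=
  mem_span_of_forall_dual hA hH fun _ hξ => ft_mem hA hH hξ lam

/-- an `A`-valued `Zl r`-linear functional on `H` is `pair ξ` for a (unique) `ξ ∈ dual A H`. -/
theorem exists_dual_of_functional [Finite X] (hH : IsHopfOrder r act H) (φ : H →ₗ[Zl r] Qb)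
    (hφ : ∀ h, φ h ∈ A) : ∃ ξ ∈ dual A H, ∀ h : H, pair ξ (h : X → Qb) = φ h := by
  obtain ⟨n, b, ξ', hbH, hc, h1, -, -⟩ := exists_dualBasis hH
  have key : ∀ h : H, pair (∑ i, φ ⟨b i, hbH i⟩ • ξ' i) (h : X → Qb) = φ h := by
    intro h
    obtain ⟨c, hc'⟩ := hc h h.2
    have e : h = ∑ i, c i • (⟨b i, hbH i⟩ : H) := by
      apply Subtype.ext
      rw [hc']
      simp
    rw [pair_sum_left]
    conv_rhs => rw [e, map_sum]
    refine Finset.sum_congr rfl fun i _ => ?_
    rw [pair_smul_left, hc', pair_expansion h1, map_smul, Algebra.smul_def, mul_comm]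
  exact ⟨_, fun h hh => by rw [key ⟨h, hh⟩]; exact hφ _, key⟩

end Fermat.Agent.MAZ
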