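import Fermat.Agent.MAZ.Loc.Dual

/-!
# MAZ / Loc / [LOC-IDEM] : idempotents

RECIPE `indicator_mem_of_subalgebra`.  `C := {t | ∀ f ∈ 𝒪, v (f t - f s0) < 1}`.  For `t ∉ C` choose
`f_t ∈ 𝒪` with `v (f_t t - f_t s0) = 1`; `f := ∏_{t ∉ C} (f_t - f_t t) / (f_t s0 - f_t t) ∈ 𝒪` vanishes
EXACTLY outside `C` and is `≡ 1` on `C`.  `p(T) := ∏_{s ∈ C} (T - f s) ∈ A[T]`, `p(0)` a unit;
`e := 1 - p(f) / p(0)` is the indicator function of `C`.

`indicator_conn_mem_span` : apply it to the `A`-subalgebra `Algebra.adjoin A H` (= the `A`-span of `H`)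
and use `mem_conn` (`x - w ∈ conn ↔ h x ≡ h w` for all `h`; `→` by definition, `←` : `mem_conn_iff` and
the comultiplication `h (x - w) = ∑ f_i x g_i (- w)`).

`exists_dual_indicator` : apply it to `S = AddChar X Qb` (finite) and
`𝒪 = {ft ξ | ξ ∈ dual A H}` (a subalgebra: `ft_conv`, `conv_mem_dual`, `ft_pt 0`; values in `A`: `ft_mem`).
`mu * lam0⁻¹ ∈ dconn ↔ ft ξ mu ≡ ft ξ lam0` for all `ξ` : `→` by definition; `←` : for `ξ ∈ dual`, `nu` a
character, `x ↦ ξ x * nu x` is again in `dual` (because `nu * h ∈ A ⊗ H` by `char_mem_span`).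
-/

set_option autoImplicit false
set_option linter.unusedSectionVars false

noncomputable section

namespace Fermat.Agent.MAZ

open Fermat.Agent.FLAT (Qb GQ Zl IsHopfOrder)
open Classical

theorem indicator_mem_of_subalgebra {A : ValuationSubring Qb} {S : Type*} [Finite S]
    (𝒪 : Subalgebra A (S → Qb)) (hint : ∀ f ∈ 𝒪, ∀ s, f s ∈ A) (s0 : S) :
    (fun t => if ∀ f ∈ 𝒪, A.valuation (f t - f s0) < 1 then (1 : Qb) else 0) ∈ 𝒪 := by
  have := Fintype.ofFinite S
  set P : S → Prop := fun t => ∀ f ∈ 𝒪, A.valuation (f t - f s0) < 1 with hP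
  -- Step A
  have hA : ∀ t, ¬ P t → ∃ g ∈ 𝒪, g t = 0 ∧ g s0 = 1 := by
    intro t ht
    simp only [hP, not_forall] at ht
    obtain ⟨f, hf, hft⟩ := ht
    have hmem : f s0 - f t ∈ A := A.sub_mem (hint f hf s0) (hint f hf t)
    have hv : A.valuation (f s0 - f t) = 1 := by
      apply le_antisymm ((A.valuation_le_one_iff _).2 hmem)
      rw [← Valuation.map_neg, neg_sub]
      exact not_lt.1 hft
    have hne : f s0 - f t ≠ 0 := by
      intro h0
      rw [h0, map_zero] at hv
      exact zero_ne_one hv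
    have hinv : (f s0 - f t)⁻¹ ∈ A := by
      rw [← A.valuation_le_one_iff, map_inv₀, hv, inv_one]
    refine ⟨(⟨(f s0 - f t)⁻¹, hinv⟩ : A) • (f - algebraMap A (S → Qb) ⟨f t, hint f hf t⟩),
      𝒪.smul_mem (𝒪.sub_mem hf (𝒪.algebraMap_mem _)) _, ?_, ?_⟩
    · simp [Algebra.smul_def, Pi.algebraMap_apply]
    · simp only [Algebra.smul_def, Pi.mul_apply, Pi.algebraMap_apply, Pi.sub_apply]
      exact inv_mul_cancel₀ hne
  -- Step B
  have hB : ∀ T : Finset S, (∀ t ∈ T, ¬ P t) → ∃ f ∈ 𝒪, (∀ t ∈ T, f t = 0) ∧ f s0 = 1 := by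
    intro T
    induction T using Finset.induction_on with
    | empty => exact fun _ => ⟨1, 𝒪.one_mem, by simp, rfl⟩
    | insert a T _ ih =>
      intro hT
      obtain ⟨f, hf, hf0, hf1⟩ := ih (fun t ht => hT t (Finset.mem_insert_of_mem ht))
      obtain ⟨g, hg, hg0, hg1⟩ := hA a (hT a (Finset.mem_insert_self _ _))
      refine ⟨f * g, 𝒪.mul_mem hf hg, fun t ht => ?_, by simp [hf1, hg1]⟩
      rcases Finset.mem_insert.1 ht with rfl | ht
      · simp [hg0]
      · simp [hf0 t ht]
  obtain ⟨f, hf, hf0, hf1⟩ := hB (Finset.univ.filter fun t => ¬ P t) (by simp)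
  -- Step D
  have hD : ∀ T : Finset S, (∀ t ∈ T, P t) → ∃ g ∈ 𝒪, (∀ t ∈ T, g t = 0) ∧
      ∀ t, f t = 0 → g t = 1 := by
    intro T
    induction T using Finset.induction_on with
    | empty => exact fun _ => ⟨1, 𝒪.one_mem, by simp, fun _ _ => rfl⟩
    | insert a T _ ih =>
      intro hT
      obtain ⟨g, hg, hg0, hg1⟩ := ih (fun t ht => hT t (Finset.mem_insert_of_mem ht))
      have ha := hT a (Finset.mem_insert_self _ _) f hf
      rw [hf1] at ha
      have hv : A.valuation (f a) = 1 := by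
        have := A.valuation.map_one_add_of_lt ha
        rwa [add_sub_cancel] at this
      have hne : f a ≠ 0 := by
        intro h0
        rw [h0, map_zero] at hv
        exact zero_ne_one hv
      have hinv : (f a)⁻¹ ∈ A := by
        rw [← A.valuation_le_one_iff, map_inv₀, hv, inv_one]
      refine ⟨g * (1 - (⟨(f a)⁻¹, hinv⟩ : A) • f),
        𝒪.mul_mem hg (𝒪.sub_mem 𝒪.one_mem (𝒪.smul_mem hf _)), fun t ht => ?_, fun t ht => ?_⟩
      · rcases Finset.mem_insert.1 ht with rfl | ht
        · simp only [Algebra.smul_def, Pi.mul_apply, Pi.algebraMap_apply, Pi.sub_apply, Pi.one_apply]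
          have : (algebraMap A Qb ⟨(f t)⁻¹, hinv⟩) * f t = 1 := inv_mul_cancel₀ hne
          rw [this, sub_self, mul_zero]
        · simp [hg0 t ht]
      · simp [hg1 t ht, ht, Algebra.smul_def]
  obtain ⟨g, hg, hg0, hg1⟩ := hD (Finset.univ.filter fun t => P t) (by simp)
  have heq : (fun t => if ∀ f ∈ 𝒪, A.valuation (f t - f s0) < 1 then (1 : Qb) else 0) = 1 - g := by
    ext t
    by_cases ht : P t
    · rw [if_pos ht]
      simp [hg0 t (by simp [ht])]
    · rw [if_neg ht]
      simp [hg1 t (hf0 t (by simp [ht]))]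
  rw [heq]
  exact 𝒪.sub_mem 𝒪.one_mem hg

variable {r : ℕ} [Fact r.Prime] {A : ValuationSubring Qb} {X : Type} [AddCommGroup X]
  {act : GQ →* AddMonoid.End X} {H : Subalgebra (Zl r) (X → Qb)}

theorem sub_mem_conn_iff (hA : A.LiesOverPrime r) [Finite X] (hH : IsHopfOrder r act H) {x w : X} :
    x - w ∈ conn A H ↔ ∀ h ∈ H, A.valuation (h x - h w) < 1 := by
  constructor
  · intro hx h hh
    have := mem_conn.1 hx h hh w
    rwa [sub_add_cancel] at this
  · intro hx
    rw [mem_conn_iff hA hH]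
    intro h hh
    have key : ∀ Φ ∈ FLAT.box (Subalgebra.toSubmodule H) (Subalgebra.toSubmodule H),
        A.valuation (Φ (x, -w) - Φ (w, -w)) < 1 := by
      intro Φ hΦ
      induction hΦ using Submodule.span_induction with
      | mem Φ hΦ =>
        obtain ⟨f, hf, g, hg, rfl⟩ := hΦ
        have h1 : f x * g (-w) - f w * g (-w) = (f x - f w) * g (-w) := by ring
        simp only
        rw [h1, map_mul]
        exact mul_lt_one_of_lt_of_le (hx f hf) ((A.valuation_le_one_iff _).2 (apply_mem hA hH hg _))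
      | zero => simp
      | add Φ Ψ _ _ h1 h2 =>
        have e : (Φ + Ψ) (x, -w) - (Φ + Ψ) (w, -w) =
            (Φ (x, -w) - Φ (w, -w)) + (Ψ (x, -w) - Ψ (w, -w)) := by
          simp only [Pi.add_apply]; ring
        rw [e]
        exact lt_of_le_of_lt (A.valuation.map_add _ _) (max_lt h1 h2)
      | smul a Φ _ h1 =>
        have e : (a • Φ) (x, -w) - (a • Φ) (w, -w) =
            algebraMap (Zl r) Qb a * (Φ (x, -w) - Φ (w, -w)) := by
          simp only [Pi.smul_apply, Algebra.smul_def]; ring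
        rw [e, map_mul, mul_comm]
        exact mul_lt_one_of_lt_of_le h1 ((A.valuation_le_one_iff _).2 (algebraMap_Zl_mem hA a))
    have := key _ (hH.comul h hh)
    simpa [sub_eq_add_neg] using this

theorem mem_adjoin_iff_mem_span {f : X → Qb} :
    f ∈ Algebra.adjoin A (H : Set (X → Qb)) ↔ f ∈ Submodule.span A (H : Set (X → Qb)) := by
  rw [← Subalgebra.mem_toSubmodule, Algebra.adjoin_eq_span]
  have : Submonoid.closure (H : Set (X → Qb)) = H.toSubsemiring.toSubmonoid :=
    Submonoid.closure_eq H.toSubsemiring.toSubmonoid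
  rw [this]
  rfl

theorem apply_mem_of_mem_span (hA : A.LiesOverPrime r) (hH : IsHopfOrder r act H) {f : X → Qb}
    (hf : f ∈ Submodule.span A (H : Set (X → Qb))) (x : X) : f x ∈ A := by
  induction hf using Submodule.span_induction with
  | mem f hf => exact apply_mem hA hH hf x
  | zero => exact A.zero_mem
  | add f g _ _ h1 h2 => exact A.add_mem _ _ h1 h2
  | smul a f _ h1 => exact A.mul_mem _ _ a.2 h1

theorem valuation_sub_lt_of_mem_span {x w : X}
    (hx : ∀ h ∈ H, A.valuation (h x - h w) < 1) {f : X → Qb}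
    (hf : f ∈ Submodule.span A (H : Set (X → Qb))) : A.valuation (f x - f w) < 1 := by
  induction hf using Submodule.span_induction with
  | mem f hf => exact hx f hf
  | zero => simp
  | add f g _ _ h1 h2 =>
    have e : (f + g) x - (f + g) w = (f x - f w) + (g x - g w) := by
      simp only [Pi.add_apply]; ring
    rw [e]
    exact lt_of_le_of_lt (A.valuation.map_add _ _) (max_lt h1 h2)
  | smul a f _ h1 =>
    have e : (a • f) x - (a • f) w = (a : Qb) * (f x - f w) := by
      simp only [Pi.smul_apply, Algebra.smul_def]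
      rw [mul_sub]
      rfl
    rw [e, map_mul, mul_comm]
    exact mul_lt_one_of_lt_of_le h1 ((A.valuation_le_one_iff _).2 a.2)

theorem indicator_conn_mem_span [Finite X] (hA : A.LiesOverPrime r) (hH : IsHopfOrder r act H)
    (w : X) : (fun x => if x - w ∈ conn A H then (1 : Qb) else 0) ∈
      Submodule.span A (H : Set (X → Qb)) := by
  have h1 := indicator_mem_of_subalgebra (Algebra.adjoin A (H : Set (X → Qb)))
    (fun f hf s => apply_mem_of_mem_span hA hH (mem_adjoin_iff_mem_span.1 hf) s) w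
  rw [mem_adjoin_iff_mem_span] at h1
  have heq : (fun x => if x - w ∈ conn A H then (1 : Qb) else 0) =
      fun t => if ∀ f ∈ Algebra.adjoin A (H : Set (X → Qb)), A.valuation (f t - f w) < 1
        then (1 : Qb) else 0 := by
    ext x
    congr 1
    rw [sub_mem_conn_iff hA hH, eq_iff_iff]
    constructor
    · intro hx f hf
      exact valuation_sub_lt_of_mem_span hx (mem_adjoin_iff_mem_span.1 hf)
    · intro hx h hh
      exact hx h (Algebra.subset_adjoin hh)
  rw [heq]
  exact h1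

theorem mul_char_mem_dual [Finite X] (hA : A.LiesOverPrime r) (hH : IsHopfOrder r act H)
    {ξ : X → Qb} (hξ : ξ ∈ dual A H) (nu : AddChar X Qb) : (fun x => ξ x * nu x) ∈ dual A H := by
  intro h hh
  have h1 : pair (fun x => ξ x * nu x) h = pair ξ ((fun x => nu x) * h) := by
    unfold pair
    exact finsum_congr fun x => by simp only [Pi.mul_apply]; ring
  rw [h1]
  refine pair_mem_of_mem_span (mem_adjoin_iff_mem_span.1 ?_) hξ
  exact Subalgebra.mul_mem _ (mem_adjoin_iff_mem_span.2 (char_mem_span hA hH nu))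
    (Algebra.subset_adjoin hh)

theorem ft_mul_char (ξ : X → Qb) (mu nu : AddChar X Qb) :
    ft ξ (mu * nu) = ft (fun x => ξ x * nu x) mu := by
  unfold ft
  exact finsum_congr fun x => by rw [AddChar.mul_apply]; ring

theorem mul_inv_mem_dconn_iff [Finite X] (hA : A.LiesOverPrime r) (hH : IsHopfOrder r act H)
    {mu lam0 : AddChar X Qb} : mu * lam0⁻¹ ∈ dconn A H ↔
      ∀ ξ ∈ dual A H, A.valuation (ft ξ mu - ft ξ lam0) < 1 := by
  constructor
  · intro h ξ hξ
    have := mem_dconn.1 h ξ hξ lam0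
    rwa [inv_mul_cancel_right] at this
  · intro h
    rw [mem_dconn]
    intro ξ hξ nu
    have h1 := h _ (mul_char_mem_dual hA hH hξ (lam0⁻¹ * nu))
    rw [← ft_mul_char, ← ft_mul_char, mul_inv_cancel_left, ← mul_assoc] at h1
    exact h1

theorem ft_add [Finite X] (ξ η : X → Qb) (lam : AddChar X Qb) :
    ft (ξ + η) lam = ft ξ lam + ft η lam := by
  unfold ft
  rw [← finsum_add_distrib (Set.toFinite _) (Set.toFinite _)]
  exact finsum_congr fun x => by simp only [Pi.add_apply]; ring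

theorem ft_smul [Finite X] (a : Qb) (ξ : X → Qb) (lam : AddChar X Qb) :
    ft (a • ξ) lam = a * ft ξ lam := by
  unfold ft
  rw [mul_finsum]
  exact finsum_congr fun x => by simp only [Pi.smul_apply, smul_eq_mul]; ring

theorem finite_addChar [Finite X] : Finite (AddChar X Qb) := by
  have h1 : LinearIndependent Qb (fun f : Multiplicative X →* Qb => (f : Multiplicative X → Qb)) :=
    linearIndependent_monoidHom _ _
  have h2 : Finite (Multiplicative X →* Qb) := h1.finite
  exact Finite.of_equiv _ (AddChar.toMonoidHomEquiv (A := X) (M := Qb)).symm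

/-- the algebra of the functions `ft ξ`, `ξ ∈ dual A H`, on the dual group. -/
def ftAlg [Finite X] (hA : A.LiesOverPrime r) (hH : IsHopfOrder r act H) :
    Subalgebra A (AddChar X Qb → Qb) where
  carrier := {F | ∃ ξ ∈ dual A H, F = ft ξ}
  mul_mem' := by
    rintro _ _ ⟨ξ, hξ, rfl⟩ ⟨η, hη, rfl⟩
    exact ⟨conv ξ η, conv_mem_dual hA hH hξ hη, by ext lam; simp [ft_conv]⟩
  add_mem' := by
    rintro _ _ ⟨ξ, hξ, rfl⟩ ⟨η, hη, rfl⟩
    exact ⟨ξ + η, add_mem_dual hξ hη, by ext lam; simp [ft_add]⟩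
  algebraMap_mem' := by
    intro a
    refine ⟨(a : Qb) • pt 0, smul_mem_dual a.2 (pt_mem_dual hA hH 0), ?_⟩
    ext lam
    rw [ft_smul, ft_pt, AddChar.map_zero_eq_one, mul_one]
    rfl

theorem exists_dual_indicator [Finite X] (hA : A.LiesOverPrime r) (hH : IsHopfOrder r act H)
    (lam0 : AddChar X Qb) : ∃ ξ ∈ dual A H, ∀ mu : AddChar X Qb,
      ft ξ mu = if mu * lam0⁻¹ ∈ dconn A H then 1 else 0 := by
  have hfin : Finite (AddChar X Qb) := finite_addChar
  obtain ⟨ξ, hξ, h1⟩ := indicator_mem_of_subalgebra (ftAlg hA hH)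
    (by rintro _ ⟨ξ, hξ, rfl⟩ s; exact ft_mem hA hH hξ s) lam0
  refine ⟨ξ, hξ, fun mu => ?_⟩
  rw [← congrFun h1 mu]
  congr 1
  rw [mul_inv_mem_dconn_iff hA hH, eq_iff_iff]
  constructor
  · intro h η hη
    exact h _ ⟨η, hη, rfl⟩
  · rintro h _ ⟨η, hη, rfl⟩
    exact h η hη

end Fermat.Agent.MAZ
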