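import Fermat.Agent.MAZ.Loc.SubQuot

/-!
# MAZ / Loc / [LOC-INDEX] : superadditivity of the etale and multiplicative ranks

`index_mul_index_le` : `1 → G' → G → G'' → 1`, `D ≤ G`, `D' ≤ G'`, `D'' ≤ G''` with `π D ≤ D''` and
`ι⁻¹ D ≤ D'` ⟹ `[G' : D'] [G'' : D''] ≤ [G : D]`  (`[G : D] = [G'' : π D] [G' : ι⁻¹ D]`).

* `conn_index_le` : `G' = F`, `G'' = X ⧸ F`.  `ι⁻¹ (conn H) ≤ conn (subOrd)` and
  `π (conn H) ≤ conn (quotOrd)` are immediate from the definitions.
* `dconn_index_le` : `G = AddChar X Qb`, `G' = AddChar (X ⧸ F) Qb` (inflation), `G'' = AddChar F Qb`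
  (restriction; surjective because `ℚ̄ˣ` is divisible: `MonoidHom.restrict_surjective`-type lemma in
  `Mathlib.GroupTheory.FiniteAbelian.Duality`).  `res (dconn H) ≤ dconn (subOrd)` by `exists_dual_ext`
  (`ft ξ lam = pair ξ lam`); `infl⁻¹ (dconn H) ≤ dconn (quotOrd)` by `exists_dual_lift`.
-/

set_option autoImplicit false

noncomputable section

namespace Fermat.Agent.MAZ

open Fermat.Agent.FLAT (Qb GQ Zl IsHopfOrder)

@[to_additive]
theorem index_eq_relIndex_ker_mul {G G'' : Type*} [Group G] [Group G''] [Finite G]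
    (π : G →* G'') (D : Subgroup G) : D.index = D.relIndex π.ker * (D ⊔ π.ker).index := by
  have h1 : (D ⊓ π.ker).index = π.ker.relIndex D * D.index := by
    rw [← Subgroup.inf_relIndex_left D π.ker]
    exact (Subgroup.relIndex_mul_index inf_le_left).symm
  have h2 : (D ⊓ π.ker).index = D.relIndex π.ker * π.ker.index := by
    rw [← Subgroup.inf_relIndex_right D π.ker]
    exact (Subgroup.relIndex_mul_index inf_le_right).symm
  have h3 : π.ker.index = π.ker.relIndex D * (D ⊔ π.ker).index := by
    rw [← Subgroup.relIndex_sup_right D π.ker]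
    exact (Subgroup.relIndex_mul_index le_sup_right).symm
  have h4 : π.ker.relIndex D ≠ 0 := by
    have : (π.ker.subgroupOf D).FiniteIndex := inferInstance
    exact this.index_ne_zero
  have h5 : π.ker.relIndex D * D.index =
      π.ker.relIndex D * (D.relIndex π.ker * (D ⊔ π.ker).index) := by
    rw [← h1, h2, h3]; ring
  exact Nat.eq_of_mul_eq_mul_left (Nat.pos_of_ne_zero h4) h5

@[to_additive]
theorem index_mul_index_le {G' G G'' : Type*} [Group G'] [Group G] [Group G''] [Finite G]
    (ι : G' →* G) (π : G →* G'') (hι : Function.Injective ι) (hπ : Function.Surjective π)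
    (hex : ι.range = π.ker) (D' : Subgroup G') (D : Subgroup G) (D'' : Subgroup G'')
    (h1 : D.comap ι ≤ D') (h2 : D.map π ≤ D'') : D'.index * D''.index ≤ D.index := by
  have : Finite G' := Finite.of_injective ι hι
  have : Finite G'' := Finite.of_surjective π hπ
  have e1 : D'.index ≤ (D.comap ι).index := Subgroup.index_antitone h1
  have e2 : D''.index ≤ (D.map π).index := Subgroup.index_antitone h2
  have e3 : (D.comap ι).index = D.relIndex π.ker := by
    rw [Subgroup.index_comap, hex]
  have e4 : (D.map π).index = (D ⊔ π.ker).index := by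
    rw [Subgroup.index_map, MonoidHom.range_eq_top.mpr hπ, Subgroup.index_top, mul_one]
  calc D'.index * D''.index ≤ (D.comap ι).index * (D.map π).index := Nat.mul_le_mul e1 e2
    _ = D.index := by rw [e3, e4, ← index_eq_relIndex_ker_mul]

variable {r : ℕ} [Fact r.Prime] {A : ValuationSubring Qb} {X : Type} [AddCommGroup X]
  {act : GQ →* AddMonoid.End X} {H : Subalgebra (Zl r) (X → Qb)}

/-- **(R1)** -/
theorem conn_index_le [Finite X] (F : AddSubgroup X) :
    (conn A (subOrd H F)).index * (conn A (quotOrd H F)).index ≤ (conn A H).index := by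
  refine index_add_index_le F.subtype (QuotientAddGroup.mk' F) F.subtype_injective
    (QuotientAddGroup.mk'_surjective F) ?_ _ _ _ ?_ ?_
  · rw [AddSubgroup.range_subtype, QuotientAddGroup.ker_mk']
  · intro x hx
    rw [AddSubgroup.mem_comap] at hx
    rw [mem_conn]
    intro h' hh' y
    obtain ⟨h, hh, rfl⟩ := hh'
    exact hx h hh y
  · rintro _ ⟨x, hx, rfl⟩
    rw [mem_conn]
    intro f hf y
    induction y using QuotientAddGroup.induction_on with
    | H y => exact hx _ (mem_quotOrd.mp hf) y

/-! ### characters -/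

namespace Index

omit [Fact r.Prime]

/-- the characters of a finite group with values in `ℚ̄` are finite in number. -/
instance finite_addChar [Finite X] : Finite (AddChar X Qb) := by
  refine Finite.of_injective
    (fun ψ : AddChar X Qb => (ψ.toMonoidHom.toHomUnits : Multiplicative X →* Qbˣ)) ?_
  intro ψ φ h
  ext x
  have := congrArg (fun f : Multiplicative X →* Qbˣ => ((f (Multiplicative.ofAdd x) : Qbˣ) : Qb)) h
  simpa using this

/-- inflation of characters. -/
def inflChar (F : AddSubgroup X) : AddChar (X ⧸ F) Qb →* AddChar X Qb where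
  toFun mu := mu.compAddMonoidHom (QuotientAddGroup.mk' F)
  map_one' := by ext x; simp
  map_mul' a b := by ext x; simp

/-- restriction of characters. -/
def resChar (F : AddSubgroup X) : AddChar X Qb →* AddChar F Qb where
  toFun lam := lam.compAddMonoidHom F.subtype
  map_one' := by ext x; simp
  map_mul' a b := by ext x; simp

@[simp] theorem inflChar_apply (F : AddSubgroup X) (mu : AddChar (X ⧸ F) Qb) (x : X) :
    inflChar F mu x = mu (x : X ⧸ F) := rfl

@[simp] theorem resChar_apply (F : AddSubgroup X) (lam : AddChar X Qb) (v : F) :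
    resChar F lam v = lam (v : X) := rfl

theorem inflChar_injective (F : AddSubgroup X) : Function.Injective (inflChar F) := by
  intro a b h
  ext y
  induction y using QuotientAddGroup.induction_on with
  | H y =>
    have := DFunLike.congr_fun h y
    simpa using this

theorem resChar_surjective [Finite X] (F : AddSubgroup X) : Function.Surjective (resChar F) := by
  intro χ
  have hne : NeZero ((Monoid.exponent (Multiplicative X) : ℕ) : ℚ) :=
    ⟨by exact_mod_cast Monoid.exponent_ne_zero_of_finite⟩
  let φ : (AddSubgroup.toSubgroup F : Subgroup (Multiplicative X)) →* Qbˣ :=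
    MonoidHom.toHomUnits
      { toFun := fun v => χ ⟨Multiplicative.toAdd (v : Multiplicative X), v.2⟩
        map_one' := by
          have : (⟨Multiplicative.toAdd
            ((1 : (AddSubgroup.toSubgroup F : Subgroup (Multiplicative X))) : Multiplicative X),
              (1 : (AddSubgroup.toSubgroup F : Subgroup (Multiplicative X))).2⟩ : F) = 0 := rfl
          rw [this, AddChar.map_zero_eq_one]
        map_mul' := fun a b => by
          rw [← AddChar.map_add_eq_mul]
          rfl }
  obtain ⟨Φ, hΦ⟩ := MonoidHom.domRestrict_surjective (G := Multiplicative X) (M := Qb)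
    (AddSubgroup.toSubgroup F) φ
  refine ⟨AddChar.toMonoidHomEquiv.symm ((Units.coeHom Qb).comp Φ), ?_⟩
  ext v
  have := congrArg (fun f : (AddSubgroup.toSubgroup F : Subgroup (Multiplicative X)) →* Qbˣ =>
    ((f ⟨Multiplicative.ofAdd (v : X), v.2⟩ : Qbˣ) : Qb)) hΦ
  simpa [φ] using this

theorem range_inflChar (F : AddSubgroup X) : (inflChar F).range = (resChar F).ker := by
  ext lam
  constructor
  · rintro ⟨mu, rfl⟩
    rw [MonoidHom.mem_ker]
    ext v
    have : ((v : X) : X ⧸ F) = 0 := (QuotientAddGroup.eq_zero_iff _).mpr v.2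
    simp [this]
  · intro h
    rw [MonoidHom.mem_ker] at h
    have hF : ∀ v ∈ F, lam.toAddMonoidHom v = 0 := by
      intro v hv
      have := DFunLike.congr_fun h ⟨v, hv⟩
      simpa using this
    refine ⟨AddChar.toAddMonoidHomEquiv.symm (QuotientAddGroup.lift F lam.toAddMonoidHom hF), ?_⟩
    ext x
    rfl

end Index

open Index in
/-- **(R2)** -/
theorem dconn_index_le [Finite X] (hA : A.LiesOverPrime r) (hH : IsHopfOrder r act H)
    (F : AddSubgroup X) (hF : ∀ σ : GQ, ∀ v ∈ F, act σ v ∈ F) :
    (dconn A (subOrd H F)).index * (dconn A (quotOrd H F)).index ≤ (dconn A H).index := by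
  rw [mul_comm]
  refine index_mul_index_le (inflChar F) (resChar F) (inflChar_injective F)
    (resChar_surjective F) (range_inflChar F) _ _ _ ?_ ?_
  · intro mu0 h0
    rw [Subgroup.mem_comap] at h0
    rw [mem_dconn]
    intro ξ' hξ' mu'
    obtain ⟨ξ, hξ, hp⟩ := exists_dual_lift hA hH F hF hξ'
    have e1 : ft ξ' (mu0 * mu') = ft ξ (inflChar F mu0 * inflChar F mu') := by
      rw [← map_mul]
      exact (hp (fun y => (mu0 * mu') y)).symm
    have e2 : ft ξ' mu' = ft ξ (inflChar F mu') := (hp (fun y => mu' y)).symm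
    rw [e1, e2]
    exact h0 ξ hξ _
  · rintro _ ⟨lam, hlam, rfl⟩
    rw [mem_dconn]
    intro ξ' hξ' mu'
    obtain ⟨mu, rfl⟩ := resChar_surjective F mu'
    obtain ⟨ξ, hξ, hp⟩ := exists_dual_ext F hξ'
    have e1 : ft ξ' (resChar F lam * resChar F mu) = ft ξ (lam * mu) := by
      rw [← map_mul]
      exact (hp (fun x => (lam * mu) x)).symm
    have e2 : ft ξ' (resChar F mu) = ft ξ mu := (hp (fun x => mu x)).symm
    rw [e1, e2]
    exact hlam ξ hξ _

end Fermat.Agent.MAZ
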