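import Fermat.Agent.MAZ.Loc.Idem

/-!
# MAZ / Loc / [LOC-PERP] : `(X^∨)⁰ = (X⁰)^⊥` and integrality of the partial Fourier coefficients

`hrank : #X ≤ [X : X⁰] [X^∨ : (X^∨)⁰]` is (RANK) (`Loc/Rank.lean`), used here as a hypothesis.

* `mem_dconn_of_forall_conn` (**D7**) : let `lam = 1` on `Y := conn A H`, `ξ ∈ dual A H`, `mu` a character.
  `ft ξ (lam * mu) - ft ξ mu = ∑_{cosets w + Y} (lam w - 1) * a_w`, `a_w := ∑_{x ∈ w + Y} ξ x * mu x =
  pair (ξ * mu) (indicator of w + Y) ∈ A` (`mul_char_mem_dual`, `indicator_conn_mem_span`,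
  `pair_mem_of_mem_span`) and `v (lam w - 1) < 1` because `lam w` is a root of unity of `r`-power order
  (`hX`) and the residue characteristic is `r` (`(ζ - 1)^(r^k) ≡ ζ^(r^k) - 1 = 0 mod r`).
* `apply_eq_one_of_mem_dconn` (**PERP**) : `P := {lam | lam = 1 on Y}` has `#P = [X : Y]`
  (`P ≃ AddChar (X ⧸ Y) Qb`, and `#AddChar G Qb = #G` for finite abelian `G`:
  `CommGroup.card_monoidHom_of_hasEnoughRootsOfUnity`-type lemma in `Mathlib.GroupTheory.FiniteAbelian.Duality`);
  `P ≤ dconn` by D7; `#dconn = #X / [X^∨ : dconn] ≤ [X : Y] = #P` by `hrank`.  So `P = dconn`.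
* `pf_mem` (**SX**) : by `exists_dual_indicator lam` there is `ξ₀ ∈ dual A H` with
  `ft ξ₀ mu = 1` if `mu = lam` on `Y`, `0` otherwise.  Fourier inversion
  (`ξ₀ x = (#X)⁻¹ ∑_mu ft ξ₀ mu * mu (-x)`, orthogonality of characters) gives
  `ξ₀ x = (#Y)⁻¹ lam (-x)` for `x ∈ Y`, `0` otherwise.  So `pf A H lam h w = pair (conv (pt w) ξ₀) h ∈ A`
  (`pair_conv_pt`, `conv_mem_dual`, `pt_mem_dual`).
-/

set_option autoImplicit false

noncomputable section

namespace Fermat.Agent.MAZ

open Fermat.Agent.FLAT (Qb GQ Zl IsHopfOrder)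

section CharKit

variable {G : Type} [AddCommGroup G]

/-- additive characters as homomorphisms to the units -/
def ppEquiv (G : Type) [AddCommGroup G] : AddChar G Qb ≃ (Multiplicative G →* Qbˣ) where
  toFun ψ := ψ.toMonoidHom.toHomUnits
  invFun φ := AddChar.toMonoidHomEquiv.symm ((Units.coeHom Qb).comp φ)
  left_inv ψ := by
    ext x
    rfl
  right_inv φ := by
    ext x
    rfl

theorem ppEquiv_apply (ψ : AddChar G Qb) (x : G) :
    ((ppEquiv G ψ (Multiplicative.ofAdd x) : Qbˣ) : Qb) = ψ x := rfl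

instance pp_enough (G : Type) [AddCommGroup G] [Finite G] :
    HasEnoughRootsOfUnity Qb (Monoid.exponent (Multiplicative G)) := by
  have : NeZero (Monoid.exponent (Multiplicative G)) := ⟨Monoid.exponent_ne_zero_of_finite⟩
  infer_instance

theorem pp_card_addChar (G : Type) [AddCommGroup G] [Finite G] :
    Nat.card (AddChar G Qb) = Nat.card G := by
  rw [Nat.card_congr (ppEquiv G), CommGroup.card_monoidHom_of_hasEnoughRootsOfUnity]
  rfl

instance pp_finite_addChar (G : Type) [AddCommGroup G] [Finite G] : Finite (AddChar G Qb) :=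
  Nat.finite_of_card_ne_zero (by rw [pp_card_addChar]; exact Nat.card_pos.ne')

theorem pp_exists_ne_one [Finite G] {x : G} (hx : x ≠ 0) : ∃ ψ : AddChar G Qb, ψ x ≠ 1 := by
  obtain ⟨φ, hφ⟩ := CommGroup.exists_apply_ne_one_of_hasEnoughRootsOfUnity (Multiplicative G) Qb
    (a := Multiplicative.ofAdd x) (by simpa using hx)
  refine ⟨(ppEquiv G).symm φ, fun h => hφ (Units.ext ?_)⟩
  exact h

/-- orthogonality, summing over the group -/
theorem pp_sum_apply [Fintype G] (ψ : AddChar G Qb) (hψ : ψ ≠ 1) : ∑ x, ψ x = 0 := by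
  rw [AddChar.sum_eq_zero_iff_ne_zero]
  exact hψ

/-- orthogonality, summing over the characters -/
theorem pp_sum_char [Finite G] [Fintype (AddChar G Qb)] {x : G} (hx : x ≠ 0) :
    ∑ ψ : AddChar G Qb, ψ x = 0 := by
  obtain ⟨ψ₀, h₀⟩ := pp_exists_ne_one hx
  have h1 : ψ₀ x * ∑ ψ : AddChar G Qb, ψ x = ∑ ψ : AddChar G Qb, ψ x := by
    rw [Finset.mul_sum]
    exact Fintype.sum_equiv (Equiv.mulLeft ψ₀) _ _ (fun ψ => rfl)
  have h2 : (ψ₀ x - 1) * ∑ ψ : AddChar G Qb, ψ x = 0 := by rw [sub_mul, h1, one_mul, sub_self]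
  exact (mul_eq_zero.mp h2).resolve_left (sub_ne_zero.mpr h₀)

omit [AddCommGroup G] in
theorem pp_pair_eq_sum [Fintype G] (ξ h : G → Qb) : pair ξ h = ∑ x, ξ x * h x :=
  finsum_eq_sum_of_fintype _

theorem pp_ft_eq_sum [Fintype G] (ξ : G → Qb) (lam : AddChar G Qb) : ft ξ lam = ∑ x, ξ x * lam x :=
  finsum_eq_sum_of_fintype _

/-- the Fourier transform is injective -/
theorem pp_eq_zero_of_ft [Finite G] {ξ : G → Qb} (h : ∀ mu : AddChar G Qb, ft ξ mu = 0) :
    ξ = 0 := by
  classical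
  have := Fintype.ofFinite G
  have := Fintype.ofFinite (AddChar G Qb)
  funext x
  have h1 : ∑ mu : AddChar G Qb, ft ξ mu * mu (-x) = 0 :=
    Finset.sum_eq_zero fun mu _ => by rw [h mu, zero_mul]
  have h2 : ∑ mu : AddChar G Qb, ft ξ mu * mu (-x) =
      ∑ z, ξ z * ∑ mu : AddChar G Qb, mu (z - x) := by
    simp_rw [pp_ft_eq_sum, Finset.sum_mul, Finset.mul_sum]
    rw [Finset.sum_comm]
    refine Finset.sum_congr rfl fun z _ => Finset.sum_congr rfl fun mu _ => ?_
    rw [sub_eq_add_neg, AddChar.map_add_eq_mul, mul_assoc]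
  rw [h2, Finset.sum_eq_single x] at h1
  · rw [sub_self] at h1
    simp only [AddChar.map_zero_eq_one, Finset.sum_const, Finset.card_univ, nsmul_eq_mul,
      mul_one] at h1
    have hc : ((Fintype.card (AddChar G Qb) : ℕ) : Qb) ≠ 0 := by
      exact_mod_cast Fintype.card_ne_zero
    exact (mul_eq_zero.mp h1).resolve_right hc
  · intro z _ hz
    rw [pp_sum_char (sub_ne_zero.mpr hz), mul_zero]
  · intro hx
    exact absurd (Finset.mem_univ x) hx

theorem pp_sum_ite_mem [Fintype G] (Y : AddSubgroup G) [Fintype Y] [DecidablePred (· ∈ Y)]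
    (f : G → Qb) : ∑ x, (if x ∈ Y then f x else 0) = ∑ y : Y, f y := by
  rw [← Finset.sum_filter]
  exact Finset.sum_subtype (Finset.univ.filter (· ∈ Y)) (fun x => by simp) f

end CharKit

variable {r : ℕ} [Fact r.Prime] {A : ValuationSubring Qb} {X : Type} [AddCommGroup X]
  {act : GQ →* AddMonoid.End X} {H : Subalgebra (Zl r) (X → Qb)}

/-- roots of unity of `r`-power order are `≡ 1`. -/
theorem valuation_sub_one_lt_one_of_pow (hA : A.LiesOverPrime r) {ζ : Qb} {k : ℕ}
    (hζ : ζ ^ r ^ k = 1) : A.valuation (ζ - 1) < 1 := by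
  have hr : r.Prime := Fact.out
  have hrk : r ^ k ≠ 0 := pow_ne_zero _ hr.ne_zero
  have hv1 : A.valuation ζ = 1 := Bridge.valuation_eq_one_of_pow_eq_one hrk hζ
  have hζA : ζ ∈ A := (A.valuation_le_one_iff _).mp hv1.le
  have hvr : A.valuation (r : Qb) < 1 := (A.mem_nonunits_iff).mp hA
  obtain ⟨t, ht⟩ := exists_add_pow_prime_pow_eq hr ((⟨ζ, hζA⟩ : A) - 1) 1 k
  have h1 := congrArg (Subtype.val) ht
  simp only [sub_add_cancel, one_pow, mul_one] at h1
  push_cast at h1
  rw [hζ] at h1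
  have h2 : (ζ - 1) ^ r ^ k = -((r : Qb) * (ζ - 1) * (t : Qb)) := by linear_combination -h1
  have hx : A.valuation (ζ - 1) ≤ 1 :=
    (A.valuation_le_one_iff _).mpr (A.sub_mem hζA A.one_mem)
  have ht1 : A.valuation (t : Qb) ≤ 1 := (A.valuation_le_one_iff _).mpr t.2
  by_contra hcon
  have h3 : A.valuation (ζ - 1) = 1 := le_antisymm hx (not_lt.mp hcon)
  have h4 := congrArg A.valuation h2
  rw [map_pow, h3, one_pow, Valuation.map_neg, map_mul, map_mul, h3, mul_one] at h4
  have h5 : A.valuation (r : Qb) * A.valuation (t : Qb) < 1 :=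
    lt_of_le_of_lt (mul_le_of_le_one_right' ht1) hvr
  rw [← h4] at h5
  exact lt_irrefl _ h5

/-- **(D7)** -/
theorem mem_dconn_of_forall_conn [Finite X] (hA : A.LiesOverPrime r) (hH : IsHopfOrder r act H)
    (hX : ∀ v : X, ∃ k : ℕ, r ^ k • v = 0) {lam : AddChar X Qb}
    (h : ∀ y ∈ conn A H, lam y = 1) : lam ∈ dconn A H := by
  classical
  have := Fintype.ofFinite X
  rw [mem_dconn]
  intro ξ hξ mu
  set Y := conn A H with hY
  have : Fintype (X ⧸ Y) := Fintype.ofFinite _
  set η : X → Qb := fun x => ξ x * mu x with hη'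
  have hη : η ∈ dual A H := mul_char_mem_dual hA hH hξ mu
  set ind : X ⧸ Y → X → Qb := fun c x => if x - c.out ∈ Y then 1 else 0 with hind'
  have hind : ∀ c, pair η (ind c) ∈ A := fun c =>
    pair_mem_of_mem_span (indicator_conn_mem_span hA hH c.out) hη
  have hout : ∀ x : X, x - (QuotientAddGroup.mk x : X ⧸ Y).out ∈ Y := by
    intro x
    have h1 : (QuotientAddGroup.mk (QuotientAddGroup.mk x : X ⧸ Y).out : X ⧸ Y) =
        QuotientAddGroup.mk x := QuotientAddGroup.out_eq' _
    rw [QuotientAddGroup.eq] at h1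
    rwa [sub_eq_neg_add]
  have e : ft ξ (lam * mu) - ft ξ mu = ∑ c : X ⧸ Y, (lam c.out - 1) * pair η (ind c) := by
    rw [pp_ft_eq_sum, pp_ft_eq_sum, ← Finset.sum_sub_distrib]
    simp_rw [pp_pair_eq_sum, Finset.mul_sum]
    rw [Finset.sum_comm]
    refine Finset.sum_congr rfl fun x _ => ?_
    rw [Finset.sum_eq_single (QuotientAddGroup.mk x : X ⧸ Y)]
    · have hl : lam x = lam (QuotientAddGroup.mk x : X ⧸ Y).out := by
        have h2 := h _ (hout x)
        have h3 : x = (x - (QuotientAddGroup.mk x : X ⧸ Y).out) +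
            (QuotientAddGroup.mk x : X ⧸ Y).out := by abel
        conv_lhs => rw [h3, AddChar.map_add_eq_mul, h2, one_mul]
      rw [hind', hη']
      beta_reduce
      rw [if_pos (hout x), AddChar.mul_apply, ← hl]
      ring
    · intro c _ hc
      have hn : x - c.out ∉ Y := by
        intro hm
        apply hc
        have h1 : (QuotientAddGroup.mk c.out : X ⧸ Y) = QuotientAddGroup.mk x := by
          rw [QuotientAddGroup.eq]
          rwa [← sub_eq_neg_add]
        rw [← h1, QuotientAddGroup.out_eq']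
      rw [hind']
      beta_reduce
      rw [if_neg hn, mul_zero, mul_zero]
    · intro hx
      exact absurd (Finset.mem_univ _) hx
  rw [e]
  refine A.valuation.map_sum_lt one_ne_zero fun c _ => ?_
  rw [map_mul]
  obtain ⟨k, hk⟩ := hX c.out
  have h1 : A.valuation (lam c.out - 1) < 1 := by
    apply valuation_sub_one_lt_one_of_pow hA (k := k)
    rw [← AddChar.map_nsmul_eq_pow, hk, AddChar.map_zero_eq_one]
  exact lt_of_le_of_lt (mul_le_of_le_one_right' ((A.valuation_le_one_iff _).mpr (hind c))) h1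

/-- **(PERP)** -/
theorem apply_eq_one_of_mem_dconn [Finite X] (hA : A.LiesOverPrime r) (hH : IsHopfOrder r act H)
    (hX : ∀ v : X, ∃ k : ℕ, r ^ k • v = 0)
    (hrank : Nat.card X ≤ (conn A H).index * (dconn A H).index) {lam : AddChar X Qb}
    (h : lam ∈ dconn A H) : ∀ y ∈ conn A H, lam y = 1 := by
  classical
  set Y := conn A H with hY
  let P : Subgroup (AddChar X Qb) :=
    { carrier := {mu | ∀ y ∈ Y, mu y = 1}
      one_mem' := fun y _ => AddChar.one_apply y
      mul_mem' := fun {a b} ha hb y hy => by rw [AddChar.mul_apply, ha y hy, hb y hy, one_mul]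
      inv_mem' := fun {a} ha y hy => by rw [AddChar.inv_apply]; exact ha _ (Y.neg_mem hy) }
  have hP : P ≤ dconn A H := fun mu hmu => mem_dconn_of_forall_conn hA hH hX hmu
  have c1 : Y.index ≤ Nat.card P := by
    rw [AddSubgroup.index, ← pp_card_addChar (X ⧸ Y)]
    refine Nat.card_le_card_of_injective
      (fun ψ : AddChar (X ⧸ Y) Qb => (⟨ψ.compAddMonoidHom (QuotientAddGroup.mk' Y), ?_⟩ : P)) ?_
    · intro y hy
      rw [AddChar.compAddMonoidHom_apply]
      have : QuotientAddGroup.mk' Y y = 0 := (QuotientAddGroup.eq_zero_iff y).mpr hy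
      rw [this, AddChar.map_zero_eq_one]
    · intro ψ₁ ψ₂ h12
      exact AddChar.compAddMonoidHom_injective_left _ (QuotientAddGroup.mk'_surjective Y)
        (congrArg Subtype.val h12)
  have c2 : Nat.card (dconn A H) * (dconn A H).index = Nat.card X := by
    rw [Subgroup.card_mul_index, pp_card_addChar]
  have c3 : Nat.card (dconn A H) ≤ Y.index := by
    have hpos : 0 < (dconn A H).index := Nat.pos_of_ne_zero Subgroup.index_ne_zero_of_finite
    refine Nat.le_of_mul_le_mul_right ?_ hpos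
    rw [c2]
    exact hrank
  have hPd : P = dconn A H := Subgroup.eq_of_le_of_card_ge hP (c3.trans c1)
  have : lam ∈ P := hPd ▸ h
  exact this

/-- **(SX)** -/
theorem pf_mem [Finite X] (hA : A.LiesOverPrime r) (hH : IsHopfOrder r act H)
    (hX : ∀ v : X, ∃ k : ℕ, r ^ k • v = 0)
    (hrank : Nat.card X ≤ (conn A H).index * (dconn A H).index) (lam : AddChar X Qb) {h : X → Qb}
    (hh : h ∈ H) (w : X) : pf A H lam h w ∈ A := by
  classical
  have := Fintype.ofFinite X
  set Y := conn A H with hY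
  have : Fintype Y := Fintype.ofFinite _
  obtain ⟨ξ₀, hξ₀, hft⟩ := exists_dual_indicator hA hH lam
  set ξ₁ : X → Qb := fun x => if x ∈ Y then (Nat.card Y : Qb)⁻¹ * lam (-x) else 0 with hξ₁
  have hcard : (Nat.card Y : Qb) ≠ 0 := by exact_mod_cast Nat.card_pos.ne'
  have hft1 : ∀ mu : AddChar X Qb, ft ξ₁ mu = if mu * lam⁻¹ ∈ dconn A H then 1 else 0 := by
    intro mu
    set ψ : AddChar Y Qb := (mu * lam⁻¹).compAddMonoidHom Y.subtype with hψ
    have e1 : ft ξ₁ mu = (Nat.card Y : Qb)⁻¹ * ∑ y : Y, ψ y := by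
      rw [pp_ft_eq_sum, Finset.mul_sum]
      refine Eq.trans ?_ (pp_sum_ite_mem Y (fun x : X => (Nat.card Y : Qb)⁻¹ * (mu * lam⁻¹) x))
      refine Finset.sum_congr rfl fun x _ => ?_
      rw [hξ₁]
      beta_reduce
      split_ifs
      · rw [AddChar.mul_apply, AddChar.inv_apply]; ring
      · rw [zero_mul]
    rw [e1]
    split_ifs with hm
    · have h1 := apply_eq_one_of_mem_dconn hA hH hX hrank hm
      have h2 : ∀ y : Y, ψ y = 1 := fun y => h1 y y.2
      rw [Finset.sum_congr rfl (fun y _ => h2 y), Finset.sum_const, Finset.card_univ,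
        nsmul_eq_mul, mul_one, ← Nat.card_eq_fintype_card, inv_mul_cancel₀ hcard]
    · have h1 : ψ ≠ 1 := by
        intro h1
        apply hm
        apply mem_dconn_of_forall_conn hA hH hX
        intro y hy
        have := DFunLike.congr_fun h1 (⟨y, hy⟩ : Y)
        exact this
      rw [pp_sum_apply ψ h1, mul_zero]
  have heq : ξ₁ = ξ₀ := by
    have h0 : ξ₁ - ξ₀ = 0 := pp_eq_zero_of_ft (fun mu => by
      have : ft (ξ₁ - ξ₀) mu = ft ξ₁ mu - ft ξ₀ mu := by
        rw [pp_ft_eq_sum, pp_ft_eq_sum, pp_ft_eq_sum, ← Finset.sum_sub_distrib]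
        exact Finset.sum_congr rfl fun x _ => by rw [Pi.sub_apply, sub_mul]
      rw [this, hft1, hft, sub_self])
    exact sub_eq_zero.mp h0
  have e : pf A H lam h w = pair (conv (pt w) ξ₀) h := by
    rw [pair_conv_pt, ← heq, pf, pp_pair_eq_sum, finsum_eq_sum_of_fintype, Finset.mul_sum]
    refine Eq.trans
      (pp_sum_ite_mem Y (fun x : X => (Nat.card Y : Qb)⁻¹ * (h (w + x) * lam (-x)))).symm ?_
    refine Finset.sum_congr rfl fun x _ => ?_
    rw [hξ₁]
    beta_reduce
    split_ifs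
    · ring
    · rw [zero_mul]
  rw [e]
  exact conv_mem_dual hA hH (pt_mem_dual hA hH w) hξ₀ h hh

end Fermat.Agent.MAZ
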