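import Fermat.Agent.MAZ.Loc.Dual
import Fermat.Agent.S32.Quot

/-!
# MAZ / Loc / [LOC-SUB], [LOC-QUOT], [LOC-SAT] : sub and quotient orders

* `isHopfOrder_subOrd` : all four fields are immediate (image of `H` under restriction).
* `isHopfOrder_quotOrd` : PORT of `S32/Quot.lean` (`HasOrder.of_surjective`, helper94), which proves exactly
  this for `H.comap (pull φ)` in the language `S32.IsOrder` (instances instead of `act`).
* `exists_dual_lift` (**SAT**) : `M' := (quotOrd H F).map (compAlg ..) = H ∩ {F-invariant functions}` is a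
  SATURATED `Zl r`-submodule of the free module `H` (`a • h ∈ M'`, `a ≠ 0` ⟹ `h ∈ M'`), so `H / M'` is
  finitely generated and torsion free over the PID `Zl r`, hence free, hence projective: there is a
  retraction `ρ : H → M'`.  Given `ξ' ∈ dual A (quotOrd H F)`, the functional
  `h ↦ pair ξ' (the function on X ⧸ F corresponding to ρ h)` is `A`-valued;
  `exists_dual_of_functional` gives `ξ`.  The identity `pair ξ (f ∘ mk) = pair ξ' f` holds for
  `f ∈ quotOrd H F` and these span all functions on `X ⧸ F` over `ℚ̄`.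
-/

set_option autoImplicit false
set_option linter.unusedSectionVars false
set_option linter.unusedVariables false

noncomputable section

namespace Fermat.Agent.MAZ

open Fermat.Agent.FLAT (Qb GQ Zl IsHopfOrder)

namespace SubQuotAux

section Box

variable {𝔸 L X Y : Type*} [CommSemiring 𝔸] [CommSemiring L] [Algebra 𝔸 L]

theorem exists_sum_of_mem_box {H₁ : Submodule 𝔸 (X → L)} {H₂ : Submodule 𝔸 (Y → L)}
    {Φ : X × Y → L} (h : Φ ∈ FLAT.box H₁ H₂) :
    ∃ (n : ℕ) (u : Fin n → X → L) (v : Fin n → Y → L), (∀ i, u i ∈ H₁) ∧ (∀ i, v i ∈ H₂) ∧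
      ∀ x y, Φ (x, y) = ∑ i, u i x * v i y := by
  unfold FLAT.box at h
  induction h using Submodule.span_induction with
  | mem F hF =>
    obtain ⟨f, hf, g, hg, rfl⟩ := hF
    exact ⟨1, fun _ => f, fun _ => g, fun _ => hf, fun _ => hg, fun x y => by simp⟩
  | zero => exact ⟨0, Fin.elim0, Fin.elim0, fun i => i.elim0, fun i => i.elim0, fun x y => by simp⟩
  | add F G _ _ hF hG =>
    obtain ⟨n, u, v, hu, hv, huv⟩ := hF
    obtain ⟨m, u', v', hu', hv', huv'⟩ := hG
    refine ⟨n + m, Fin.append u u', Fin.append v v', ?_, ?_, ?_⟩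
    · intro i
      refine Fin.addCases (fun i => ?_) (fun i => ?_) i
      · rw [Fin.append_left]; exact hu i
      · rw [Fin.append_right]; exact hu' i
    · intro i
      refine Fin.addCases (fun i => ?_) (fun i => ?_) i
      · rw [Fin.append_left]; exact hv i
      · rw [Fin.append_right]; exact hv' i
    · intro x y
      rw [Fin.sum_univ_add, Pi.add_apply, huv, huv']
      simp only [Fin.append_left, Fin.append_right]
  | smul c F _ hF =>
    obtain ⟨n, u, v, hu, hv, huv⟩ := hF
    refine ⟨n, fun i => c • u i, v, fun i => H₁.smul_mem c (hu i), hv, fun x y => ?_⟩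
    rw [Pi.smul_apply, huv, Finset.smul_sum]
    exact Finset.sum_congr rfl fun i _ => (smul_mul_assoc c (u i x) (v i y)).symm

theorem mem_box_of_sum {H₁ : Submodule 𝔸 (X → L)} {H₂ : Submodule 𝔸 (Y → L)}
    {Φ : X × Y → L} {n : ℕ} (u : Fin n → X → L) (v : Fin n → Y → L) (hu : ∀ i, u i ∈ H₁)
    (hv : ∀ i, v i ∈ H₂) (h : ∀ x y, Φ (x, y) = ∑ i, u i x * v i y) : Φ ∈ FLAT.box H₁ H₂ := by
  have e : Φ = ∑ i, (fun p : X × Y => u i p.1 * v i p.2) := by
    funext p
    rw [Finset.sum_apply]
    exact h p.1 p.2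
  rw [e]
  exact Submodule.sum_mem _ fun i _ => Submodule.subset_span ⟨u i, hu i, v i, hv i, rfl⟩

end Box

theorem pair_eq_sum {X : Type} [Fintype X] (ξ h : X → Qb) : pair ξ h = ∑ x, ξ x * h x :=
  finsum_eq_sum_of_fintype _

/-- `pair ξ` as a linear map. -/
def pairL {X : Type} [Finite X] (ξ : X → Qb) : (X → Qb) →ₗ[Qb] Qb where
  toFun h := pair ξ h
  map_add' f g := by
    have := Fintype.ofFinite X
    simp only [pair_eq_sum, Pi.add_apply, mul_add, Finset.sum_add_distrib]
  map_smul' c f := by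
    have := Fintype.ofFinite X
    simp only [pair_eq_sum, Pi.smul_apply, smul_eq_mul, RingHom.id_apply, Finset.mul_sum]
    exact Finset.sum_congr rfl fun x _ => by ring

@[simp] theorem pairL_apply {X : Type} [Finite X] (ξ h : X → Qb) : pairL ξ h = pair ξ h := rfl

/-- a finitely generated subalgebra of equivariant functions is free, and a basis of it is linearly
independent over `ℚ̄`. -/
theorem exists_basis_of_fg {r : ℕ} [Fact r.Prime] {V : Type} [AddCommGroup V]
    (act : GQ →* AddMonoid.End V) (M : Subalgebra (Zl r) (V → Qb))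
    (hfg : (Subalgebra.toSubmodule M).FG) (heq : ∀ h ∈ M, ∀ σ : GQ, FLAT.IsEquiv act σ h) :
    ∃ (n : ℕ) (b : Module.Basis (Fin n) (Zl r) M),
      LinearIndependent Qb (fun i => ((b i : M) : V → Qb)) := by
  have : Module.Finite (Zl r) M := Module.Finite.iff_fg.mpr hfg
  have : Module.IsTorsionFree (Zl r) M := by
    refine ⟨fun a ha x y hxy => ?_⟩
    have hr0 : algebraMap (Zl r) Qb a ≠ 0 := by
      intro h0
      have : a = 0 := FLAT.algebraMap_Zl_injective (by rw [h0, map_zero])
      exact ha.ne_zero this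
    apply Subtype.ext
    funext v
    have h1 := congrFun (congrArg Subtype.val hxy) v
    simp only [Algebra.smul_def] at h1
    exact mul_left_cancel₀ hr0 h1
  obtain ⟨n, b⟩ := Module.basisOfFiniteTypeTorsionFree' (R := Zl r) (M := M)
  refine ⟨n, b, ?_⟩
  apply FLAT.linearIndependent_of_equivariant act
  · intro i σ
    exact heq _ (b i).2 σ
  · rw [← LinearIndependent.iff_fractionRing (Zl r) ℚ]
    have := b.linearIndependent
    exact this.map' (Subalgebra.toSubmodule M).subtype (Submodule.ker_subtype _)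

end SubQuotAux

open SubQuotAux

variable {r : ℕ} [Fact r.Prime] {A : ValuationSubring Qb} {X : Type} [AddCommGroup X]
  {act : GQ →* AddMonoid.End X} {H : Subalgebra (Zl r) (X → Qb)}

/-- **[LOC-SUB]** -/
theorem isHopfOrder_subOrd (hH : IsHopfOrder r act H) (F : AddSubgroup X)
    (hF : ∀ σ : GQ, ∀ v ∈ F, act σ v ∈ F) : IsHopfOrder r (subAct act F hF) (subOrd H F) := by
  refine ⟨?_, ?_, ?_, ?_⟩
  · rintro _ ⟨h, hh, rfl⟩ σ v
    exact hH.equivariant h hh σ (v : X)
  · have e : Subalgebra.toSubmodule (subOrd H F) =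
        (Subalgebra.toSubmodule H).map (compAlg r (Subtype.val : F → X)).toLinearMap := rfl
    rw [e]
    exact hH.fg.map _
  · have h1 : Submodule.span Qb ((LinearMap.funLeft Qb Qb (Subtype.val : F → X)) ''
        (H : Set (X → Qb))) = ⊤ := by
      rw [← Submodule.map_span, hH.span_top, Submodule.map_top, LinearMap.range_eq_top]
      exact LinearMap.funLeft_surjective_of_injective Qb Qb _ Subtype.val_injective
    rw [← h1]
    rfl
  · rintro _ ⟨h, hh, rfl⟩
    obtain ⟨n, u, v, hu, hv, huv⟩ := exists_sum_of_mem_box (hH.comul h hh)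
    refine mem_box_of_sum (fun i => compAlg r (Subtype.val : F → X) (u i))
      (fun i => compAlg r (Subtype.val : F → X) (v i)) (fun i => ⟨u i, hu i, rfl⟩)
      (fun i => ⟨v i, hv i, rfl⟩) fun x y => ?_
    exact huv x y

/-- extension by zero maps the dual lattice of the sub order into the dual lattice. -/
theorem exists_dual_ext [Finite X] (F : AddSubgroup X) {ξ' : F → Qb}
    (hξ' : ξ' ∈ dual A (subOrd H F)) :
    ∃ ξ ∈ dual A H, ∀ f : X → Qb, pair ξ f = pair ξ' (fun v : F => f v) := by
  classical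
  have := Fintype.ofFinite X
  let ξ : X → Qb := fun x => if hx : x ∈ F then ξ' ⟨x, hx⟩ else 0
  have key : ∀ f : X → Qb, pair ξ f = pair ξ' (fun v : F => f v) := by
    intro f
    rw [pair_eq_sum, pair_eq_sum]
    have h1 : ∑ x, ξ x * f x = ∑ x ∈ Finset.univ.filter (fun x => x ∈ F), ξ x * f x := by
      rw [Finset.sum_filter]
      refine Finset.sum_congr rfl fun x _ => ?_
      by_cases hx : x ∈ F
      · rw [if_pos hx]
      · rw [if_neg hx]; simp [ξ, hx]
    rw [h1, Finset.sum_subtype (p := fun x => x ∈ F) _ (fun x => by simp)]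
    refine Finset.sum_congr rfl fun v _ => ?_
    simp [ξ]
  refine ⟨ξ, fun h hh => ?_, key⟩
  rw [key]
  exact hξ' _ ⟨h, hh, rfl⟩

open Fermat.Agent.S32.QuotAux in
/-- **[LOC-QUOT]** -/
theorem isHopfOrder_quotOrd [Finite X] (hH : IsHopfOrder r act H) (F : AddSubgroup X)
    (hF : ∀ σ : GQ, ∀ v ∈ F, act σ v ∈ F) : IsHopfOrder r (quotAct act F hF) (quotOrd H F) := by
  classical
  have := Fintype.ofFinite X
  set φ : X →+ X ⧸ F := QuotientAddGroup.mk' F with hφdef
  have hφ : Function.Surjective φ := QuotientAddGroup.mk'_surjective F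
  have hker : ∀ κ : X, φ κ = 0 ↔ κ ∈ F := fun κ => QuotientAddGroup.eq_zero_iff κ
  set H'' : Subalgebra (Zl r) ((X ⧸ F) → Qb) := quotOrd H F with hH''
  have hmem : ∀ a'' : (X ⧸ F) → Qb, a'' ∈ H'' ↔ (fun x => a'' (φ x)) ∈ H := fun a'' => Iff.rfl
  have heqv : ∀ a ∈ H'', ∀ σ : GQ, FLAT.IsEquiv (quotAct act F hF) σ a := by
    intro a ha σ y
    obtain ⟨x, rfl⟩ := hφ y
    exact hH.equivariant _ ((hmem a).1 ha) σ x
  have hfg : (Subalgebra.toSubmodule H'').FG := by
    have hN : IsNoetherian (Zl r) (Subalgebra.toSubmodule H) :=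
      isNoetherian_of_fg_of_noetherian _ hH.fg
    refine Submodule.fg_of_fg_map_injective (pull r φ).toLinearMap (pull_injective r hφ) ?_
    refine isNoetherian_submodule.1 hN _ ?_
    rintro _ ⟨a, ha, rfl⟩
    exact ha
  refine ⟨heqv, hfg, ?_, ?_⟩
  · -- span
    have h1 : Submodule.span Qb (push φ '' (H : Set (X → Qb))) = ⊤ := by
      rw [← Submodule.map_span, hH.span_top, Submodule.map_top, LinearMap.range_eq_top]
      exact push_surjective hφ
    rw [eq_top_iff, ← h1, Submodule.span_le]
    rintro _ ⟨a, ha, rfl⟩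
    obtain ⟨n, u, v, hu, hv, huv⟩ := exists_sum_of_mem_box (hH.comul a ha)
    -- the constants
    let s : Fin n → Qb := fun i => ∑ κ ∈ Finset.univ.filter (fun κ => φ κ = 0), v i κ
    have hs : ∀ i, ∃ q : ℚ, algebraMap ℚ Qb q = s i := by
      intro i
      apply FLAT.mem_range_of_fixed
      intro σ
      show σ (∑ κ ∈ Finset.univ.filter (fun κ => φ κ = 0), v i κ) = _
      rw [map_sum]
      let eσ : X ≃ X :=
        { toFun := act σ
          invFun := act σ⁻¹
          left_inv := fun x => by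
            have := FLAT.act_act_inv_ord act σ⁻¹ x
            rwa [inv_inv] at this
          right_inv := fun x => FLAT.act_act_inv_ord act σ x }
      refine Finset.sum_equiv eσ ?_ ?_
      · intro κ
        simp only [Finset.mem_filter, Finset.mem_univ, true_and, hker]
        constructor
        · intro h; exact hF σ κ h
        · intro h
          have h2 := hF σ⁻¹ _ h
          have h3 : act σ⁻¹ (act σ κ) = κ := eσ.left_inv κ
          change act σ⁻¹ (act σ κ) ∈ F at h2
          rwa [h3] at h2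
      · intro κ _
        exact (hH.equivariant _ (hv i) σ κ).symm
    choose q hq using hs
    obtain ⟨d, hd, hdr⟩ := exists_common_den (p := r) Finset.univ q
    choose t ht using fun i => hdr i (Finset.mem_univ i)
    have hd' : algebraMap (Zl r) Qb d ≠ 0 := by
      intro h0
      have h4 : algebraMap ℚ Qb (d : ℚ) = 0 := h0
      exact hd (Subtype.ext ((map_eq_zero _).mp h4))
    have hin : algebraMap (Zl r) Qb d • push φ a ∈ H'' := by
      rw [hmem]
      have e : (fun x => (algebraMap (Zl r) Qb d • push φ a) (φ x)) =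
          fun x => ∑ i ∈ Finset.univ, algebraMap (Zl r) Qb (t i) * u i x := by
        funext x
        rw [Pi.smul_apply, push_apply_map, smul_eq_mul]
        simp_rw [huv]
        rw [Finset.sum_comm, Finset.mul_sum]
        refine Finset.sum_congr rfl fun i _ => ?_
        rw [← Finset.mul_sum]
        have e1 : algebraMap (Zl r) Qb (t i) = algebraMap (Zl r) Qb d * s i := by
          rw [← hq i]
          show algebraMap ℚ Qb (t i : ℚ) = algebraMap ℚ Qb (d : ℚ) * _
          rw [← ht i, map_mul]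
        rw [e1]
        have e3 : ∀ (inst : DecidablePred fun κ : X => φ κ = 0),
            (∑ κ ∈ @Finset.filter _ (fun κ => φ κ = 0) inst Finset.univ, v i κ) = s i := by
          intro inst
          simp only [s]
          congr
        rw [e3]
        ring
      rw [e]
      exact sum_mem H _ _ _ fun i _ => hu i
    have e2 : push φ a = (algebraMap (Zl r) Qb d)⁻¹ • (algebraMap (Zl r) Qb d • push φ a) := by
      rw [smul_smul, inv_mul_cancel₀ hd', one_smul]
    rw [e2]
    exact Submodule.smul_mem _ _ (Submodule.subset_span hin)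
  · -- comul
    intro a'' ha''
    have ha : (fun x => a'' (φ x)) ∈ H := (hmem a'').1 ha''
    obtain ⟨n, u, v, hu, hv, huv⟩ := exists_sum_of_mem_box (hH.comul _ ha)
    obtain ⟨m, b, hb⟩ := hH.exists_basis
    obtain ⟨m'', b'', hb''⟩ := exists_basis_of_fg (quotAct act F hF) H'' hfg heqv
    -- step 1
    let A : Fin m → X → Qb := fun j x => ∑ i, algebraMap (Zl r) Qb (b.repr ⟨v i, hv i⟩ j) * u i x
    have hA : ∀ j, A j ∈ H := fun j => sum_mem H _ _ _ fun i _ => hu i
    have h1 : ∀ x y, a'' (φ x + φ y) = ∑ j, A j x * ((b j : H) : X → Qb) y := by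
      intro x y
      rw [← map_add, huv]
      simp_rw [A, Finset.sum_mul]
      rw [Finset.sum_comm]
      refine Finset.sum_congr rfl fun i _ => ?_
      rw [eq_sum_repr H b (hv i) y, Finset.mul_sum]
      exact Finset.sum_congr rfl fun j _ => by ring
    -- step 2
    have hAinv : ∀ j x κ, φ κ = 0 → A j (x + κ) = A j x := by
      intro j x κ hκ
      have h2 : ∑ j, (A j (x + κ) - A j x) • ((b j : H) : X → Qb) = 0 := by
        funext y
        rw [Finset.sum_apply, Pi.zero_apply]
        simp_rw [Pi.smul_apply, smul_eq_mul, sub_mul]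
        rw [Finset.sum_sub_distrib, ← h1, ← h1, map_add, hκ, add_zero, sub_self]
      exact sub_eq_zero.1 (Fintype.linearIndependent_iff.1 hb _ h2 j)
    have hA'' : ∀ j, ∃ f'' : (X ⧸ F) → Qb, ∀ x, f'' (φ x) = A j x := fun j =>
      exists_descend φ hφ (A j) (hAinv j)
    choose A'' hA''φ using hA''
    have hA''mem : ∀ j, A'' j ∈ H'' := by
      intro j
      rw [hmem]
      have : (fun x => A'' j (φ x)) = A j := funext (hA''φ j)
      rw [this]
      exact hA j
    -- step 3
    let B : Fin m'' → X → Qb := fun l y =>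
      ∑ j, algebraMap (Zl r) Qb (b''.repr ⟨A'' j, hA''mem j⟩ l) * ((b j : H) : X → Qb) y
    have hB : ∀ l, B l ∈ H := fun l => sum_mem H _ _ _ fun j _ => (b j).2
    have h3 : ∀ x y, a'' (φ x + φ y) = ∑ l, ((b'' l : H'') : (X ⧸ F) → Qb) (φ x) * B l y := by
      intro x y
      rw [h1]
      simp_rw [B, Finset.mul_sum]
      rw [Finset.sum_comm]
      refine Finset.sum_congr rfl fun j _ => ?_
      rw [← hA''φ j x, eq_sum_repr H'' b'' (hA''mem j) (φ x), Finset.sum_mul]
      exact Finset.sum_congr rfl fun l _ => by ring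
    -- step 4
    have hBinv : ∀ l y κ, φ κ = 0 → B l (y + κ) = B l y := by
      intro l y κ hκ
      have h4 : ∑ l, (B l (y + κ) - B l y) • ((b'' l : H'') : (X ⧸ F) → Qb) = 0 := by
        funext x''
        obtain ⟨x, rfl⟩ := hφ x''
        rw [Finset.sum_apply, Pi.zero_apply]
        simp_rw [Pi.smul_apply, smul_eq_mul, sub_mul, mul_comm (B _ _)]
        rw [Finset.sum_sub_distrib, ← h3, ← h3, map_add, hκ, add_zero, sub_self]
      exact sub_eq_zero.1 (Fintype.linearIndependent_iff.1 hb'' _ h4 l)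
    have hB'' : ∀ l, ∃ f'' : (X ⧸ F) → Qb, ∀ x, f'' (φ x) = B l x := fun l =>
      exists_descend φ hφ (B l) (hBinv l)
    choose B'' hB''φ using hB''
    have hB''mem : ∀ l, B'' l ∈ H'' := by
      intro l
      rw [hmem]
      have : (fun x => B'' l (φ x)) = B l := funext (hB''φ l)
      rw [this]
      exact hB l
    refine mem_box_of_sum (fun l => ((b'' l : H'') : (X ⧸ F) → Qb)) B'' (fun l => (b'' l).2)
      hB''mem ?_
    intro x'' y''
    obtain ⟨x, rfl⟩ := hφ x''
    obtain ⟨y, rfl⟩ := hφ y''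
    show a'' (φ x + φ y) = _
    rw [h3]
    exact Finset.sum_congr rfl fun l _ => by rw [hB''φ]

/-- **[LOC-SAT]** the dual lattice maps ONTO the dual lattice of the quotient order. -/
theorem exists_dual_lift [Finite X] (hA : A.LiesOverPrime r) (hH : IsHopfOrder r act H)
    (F : AddSubgroup X) (hF : ∀ σ : GQ, ∀ v ∈ F, act σ v ∈ F) {ξ' : (X ⧸ F) → Qb}
    (hξ' : ξ' ∈ dual A (quotOrd H F)) :
    ∃ ξ ∈ dual A H, ∀ f : (X ⧸ F) → Qb, pair ξ (fun x : X => f (x : X ⧸ F)) = pair ξ' f := by
  classical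
  -- the saturated submodule of the invariant functions
  let N : Submodule (Zl r) H :=
    { carrier := {h | ∀ x : X, ∀ κ ∈ F, (h : X → Qb) (x + κ) = (h : X → Qb) x}
      add_mem' := fun {a b} ha hb x κ hκ => by
        show (a : X → Qb) (x + κ) + (b : X → Qb) (x + κ) = (a : X → Qb) x + (b : X → Qb) x
        rw [ha x κ hκ, hb x κ hκ]
      zero_mem' := fun x κ _ => rfl
      smul_mem' := fun c a ha x κ hκ => by
        show c • (a : X → Qb) (x + κ) = c • (a : X → Qb) x
        rw [ha x κ hκ] }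
  have hNmem : ∀ h : H, h ∈ N ↔ ∀ x : X, ∀ κ ∈ F, (h : X → Qb) (x + κ) = (h : X → Qb) x :=
    fun _ => Iff.rfl
  have : Module.Finite (Zl r) H := Module.Finite.iff_fg.mpr hH.fg
  have : Module.IsTorsionFree (Zl r) (H ⧸ N) := by
    refine Module.IsTorsionFree.of_smul_eq_zero fun a m ham => ?_
    by_cases ha : a = 0
    · exact Or.inl ha
    right
    obtain ⟨h, rfl⟩ := Submodule.Quotient.mk_surjective N m
    rw [← Submodule.Quotient.mk_smul, Submodule.Quotient.mk_eq_zero] at ham
    rw [Submodule.Quotient.mk_eq_zero, hNmem]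
    intro x κ hκ
    have h1 : a • (h : X → Qb) (x + κ) = a • (h : X → Qb) x := ham x κ hκ
    have ha0 : algebraMap (Zl r) Qb a ≠ 0 := by
      intro h0
      exact ha (FLAT.algebraMap_Zl_injective (by rw [h0, map_zero]))
    rw [Algebra.smul_def, Algebra.smul_def] at h1
    exact mul_left_cancel₀ ha0 h1
  have : Module.Free (Zl r) (H ⧸ N) := Module.free_of_finite_type_torsion_free'
  obtain ⟨s, hs⟩ := Module.projective_lifting_property N.mkQ LinearMap.id
    (Submodule.mkQ_surjective N)
  let ρ : H →ₗ[Zl r] H := LinearMap.id - s ∘ₗ N.mkQ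
  have hρN : ∀ h, ρ h ∈ N := by
    intro h
    rw [← Submodule.Quotient.mk_eq_zero, ← Submodule.mkQ_apply]
    have h1 : N.mkQ (s (N.mkQ h)) = N.mkQ h := LinearMap.congr_fun hs (N.mkQ h)
    simp only [ρ, LinearMap.sub_apply, LinearMap.id_apply, LinearMap.comp_apply, map_sub, h1,
      sub_self]
  have hρid : ∀ h ∈ N, ρ h = h := by
    intro h hh
    have h1 : N.mkQ h = 0 := (Submodule.Quotient.mk_eq_zero N).mpr hh
    simp only [ρ, LinearMap.sub_apply, LinearMap.id_apply, LinearMap.comp_apply, h1, map_zero,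
      sub_zero]
  -- descent of invariant functions
  let desc : (X → Qb) →ₗ[Zl r] ((X ⧸ F) → Qb) :=
    (compAlg r (Quotient.out : X ⧸ F → X)).toLinearMap
  have hdesc : ∀ h ∈ N, ∀ x : X, desc (h : X → Qb) (x : X ⧸ F) = (h : X → Qb) x := by
    intro h hh x
    obtain ⟨κ, hκ⟩ := QuotientAddGroup.mk_out_eq_add F x
    show (h : X → Qb) (Quotient.out (x : X ⧸ F)) = _
    rw [hκ]
    exact hh x κ κ.2
  have hdescmem : ∀ h ∈ N, desc (h : X → Qb) ∈ quotOrd H F := by
    intro h hh
    rw [mem_quotOrd]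
    have : (fun x : X => desc (h : X → Qb) (x : X ⧸ F)) = (h : X → Qb) := funext (hdesc h hh)
    rw [this]
    exact h.2
  let φ : H →ₗ[Zl r] Qb :=
    ((pairL ξ').restrictScalars (Zl r)) ∘ₗ desc ∘ₗ H.val.toLinearMap ∘ₗ ρ
  have hφ : ∀ h, φ h = pair ξ' (desc ((ρ h : H) : X → Qb)) := fun _ => rfl
  obtain ⟨ξ, hξ, hξφ⟩ := exists_dual_of_functional (A := A) hH φ (fun h => by
    rw [hφ]
    exact hξ' _ (hdescmem _ (hρN h)))
  refine ⟨ξ, hξ, ?_⟩
  have hQ := isHopfOrder_quotOrd hH F hF
  have key : (pairL ξ) ∘ₗ (LinearMap.funLeft Qb Qb (QuotientAddGroup.mk : X → X ⧸ F)) = pairL ξ' := by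
    refine LinearMap.ext_on hQ.span_top ?_
    intro f hf
    have hfH : (fun x : X => f (x : X ⧸ F)) ∈ H := hf
    have hfN : (⟨_, hfH⟩ : H) ∈ N := by
      rw [hNmem]
      intro x κ hκ
      show f ((x + κ : X) : X ⧸ F) = f (x : X ⧸ F)
      congr 1
      rw [QuotientAddGroup.mk_add, (QuotientAddGroup.eq_zero_iff κ).mpr hκ, add_zero]
    show pair ξ (fun x : X => f (x : X ⧸ F)) = pair ξ' f
    rw [hξφ ⟨_, hfH⟩, hφ, hρid _ hfN]
    congr 1
    funext y
    induction y using QuotientAddGroup.induction_on with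
    | H x => exact hdesc _ hfN x
  intro f
  exact LinearMap.congr_fun key f

end Fermat.Agent.MAZ
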